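import Mathlib
import Fermat.Prelude.Def_CuspForm_HeckeAlgebra
import Fermat.Prelude.Def_FLTPrelim_Modularity
import Fermat.Prelude.Thm_CongruenceSubgroup_one_mem_strictPeriods_Gamma0
import Fermat.Prelude.Thm_ModularFormClass_qCoeff_heckeT
import Fermat.Prelude.Thm_ModularFormClass_qCoeff_heckeU
import Fermat.Prelude.Thm_UpperHalfPlane_eq_of_forall_qCoeff_eq

/-!
# Old-space degeneracy maps `f(τ) ↦ f(d τ)`
-/

set_option autoImplicit false

noncomputable section

namespace Fermat.Agent.Newform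

open UpperHalfPlane Matrix.SpecialLinearGroup ModularForm ModularFormClass
open scoped MatrixGroups ModularForm Manifold

/-- `f ↦ f(d τ)` on functions on the upper half plane. -/
def dilate (d : ℕ) (f : ℍ → ℂ) : ℍ → ℂ := fun τ => f (heckeDiagMatrix d • τ)

theorem dilate_apply (d : ℕ) (f : ℍ → ℂ) (τ : ℍ) :
    dilate d f τ = f (heckeDiagMatrix d • τ) := rfl

theorem dilate_eq_smul_slash (k : ℤ) {d : ℕ} (hd : d ≠ 0) (f : ℍ → ℂ) :
    dilate d f = ((d : ℂ) ^ (1 - k)) • (f ∣[k] heckeDiagMatrix d) := by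
  funext τ
  have hd' : (d : ℂ) ≠ 0 := by exact_mod_cast hd
  rw [Pi.smul_apply, slash_heckeDiagMatrix_apply k hd, smul_eq_mul, ← mul_assoc, ← zpow_add₀ hd',
    show 1 - k + (k - 1) = (0 : ℤ) by ring, zpow_zero, one_mul, dilate_apply]

theorem dilate_slash_eq_self (k : ℤ) {M N d : ℕ} (hd : d ≠ 0) (h : M * d ∣ N) {f : ℍ → ℂ}
    (hf : ∀ γ ∈ (CongruenceSubgroup.Gamma0 M : Subgroup (GL (Fin 2) ℝ)), f ∣[k] γ = f)
    (γ : GL (Fin 2) ℝ) (hγ : γ ∈ (CongruenceSubgroup.Gamma0 N : Subgroup (GL (Fin 2) ℝ))) :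
    dilate d f ∣[k] γ = dilate d f := by
  obtain ⟨g, hg, rfl⟩ := Subgroup.mem_map.mp hγ
  have hNc : (N : ℤ) ∣ g 1 0 :=
    (ZMod.intCast_zmod_eq_zero_iff_dvd _ _).mp (CongruenceSubgroup.Gamma0_mem.mp hg)
  have hMd : ((M : ℤ) * d) ∣ g 1 0 := dvd_trans (by exact_mod_cast h) hNc
  obtain ⟨e, he⟩ := hMd
  have hdet : (g 0 0 : ℤ) * g 1 1 - g 0 1 * g 1 0 = 1 := by
    have := g.det_coe
    rwa [Matrix.det_fin_two] at this
  obtain ⟨g', hg'v⟩ : ∃ g' : SL(2, ℤ),
      (g' : Matrix (Fin 2) (Fin 2) ℤ) = !![g 0 0, (d : ℤ) * g 0 1; (M : ℤ) * e, g 1 1] :=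
    ⟨⟨_, by rw [Matrix.det_fin_two_of]; linear_combination hdet + (g 0 1 : ℤ) * he⟩, rfl⟩
  have hg' : g' ∈ CongruenceSubgroup.Gamma0 M := by
    rw [CongruenceSubgroup.Gamma0_mem]
    simp [hg'v]
  have hmul : heckeDiagMatrix d * mapGL ℝ g = mapGL ℝ g' * heckeDiagMatrix d := by
    refine Matrix.GeneralLinearGroup.ext fun i j => ?_
    have hec : ((g 1 0 : ℤ) : ℝ) = M * d * e := by rw [he]; push_cast; ring
    fin_cases i <;> fin_cases j <;>
      simp [hg'v, Matrix.mul_apply, Fin.sum_univ_two, val_heckeDiagMatrix hd, hec] <;> ring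
  have hσ : UpperHalfPlane.σ (mapGL ℝ g : GL (Fin 2) ℝ) = .refl ℝ ℂ := by
    simp [UpperHalfPlane.σ]
  rw [dilate_eq_smul_slash k hd, ModularForm.smul_slash, hσ, ContinuousAlgEquiv.refl_apply,
    ← SlashAction.slash_mul, hmul, SlashAction.slash_mul, hf _ (Subgroup.mem_map_of_mem _ hg')]

variable {M N d : ℕ}

theorem neZero_left_of_mul_dvd [NeZero N] (h : M * d ∣ N) : NeZero M :=
  ⟨fun h0 => NeZero.ne N (by simpa [h0] using h)⟩

theorem ne_zero_right_of_mul_dvd [NeZero N] (h : M * d ∣ N) : d ≠ 0 :=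
  fun h0 => NeZero.ne N (by simpa [h0] using h)

theorem isZeroAt_dilate [NeZero N] {k : ℤ} (h : M * d ∣ N)
    (f : CuspForm (CongruenceSubgroup.Gamma0 M) k) {c : OnePoint ℝ}
    (hc : IsCusp c (CongruenceSubgroup.Gamma0 N : Subgroup (GL (Fin 2) ℝ))) :
    c.IsZeroAt (dilate d ⇑f) k := by
  have := neZero_left_of_mul_dvd h
  have hd := ne_zero_right_of_mul_dvd h
  have hcusp : IsCusp (heckeDiagMatrix d • c)
      (CongruenceSubgroup.Gamma0 M : Subgroup (GL (Fin 2) ℝ)) := by
    rw [Subgroup.IsArithmetic.isCusp_iff_isCusp_SL2Z, isCusp_SL2Z_iff] at hc ⊢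
    obtain ⟨c, rfl⟩ := hc
    let D : GL (Fin 2) ℚ := Matrix.GeneralLinearGroup.mkOfDetNeZero !![(d : ℚ), 0; 0, 1]
      (by simp [Matrix.det_fin_two_of, hd])
    refine ⟨D • c, ?_⟩
    have hD : heckeDiagMatrix d = Matrix.GeneralLinearGroup.map (Rat.castHom ℝ) D := by
      refine Matrix.GeneralLinearGroup.ext fun i j => ?_
      fin_cases i <;> fin_cases j <;>
        simp [D, val_heckeDiagMatrix hd, Matrix.GeneralLinearGroup.mkOfDetNeZero]
    rw [hD, ← Rat.coe_castHom, OnePoint.map_smul]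
  rw [dilate_eq_smul_slash k hd]
  intro g hg
  have h1 := (OnePoint.IsZeroAt.smul_iff.mp (CuspFormClass.zero_at_cusps f hcusp)) g hg
  rw [ModularForm.smul_slash]
  exact Filter.ZeroAtFilter.smul _ h1

/-- The degeneracy map `f ↦ f(d τ)` from level `M` to level `N` for `M * d ∣ N`. -/
def degeneracy (k : ℤ) [NeZero N] (h : M * d ∣ N) :
    CuspForm (CongruenceSubgroup.Gamma0 M) k →ₗ[ℂ] CuspForm (CongruenceSubgroup.Gamma0 N) k where
  toFun f :=
    { toFun := dilate d ⇑f
      slash_action_eq' := fun γ hγ => dilate_slash_eq_self k (ne_zero_right_of_mul_dvd h) h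
        (fun γ hγ => SlashInvariantFormClass.slash_action_eq f γ hγ) γ hγ
      holo' := by
        show MDiff (dilate d ⇑f)
        rw [dilate_eq_smul_slash k (ne_zero_right_of_mul_dvd h)]
        exact ((CuspFormClass.holo f).slash k _).const_smul _
      zero_at_cusps' := fun hc => isZeroAt_dilate h f hc }
  map_add' _ _ := rfl
  map_smul' c f := DFunLike.coe_injective <| funext fun τ => by
    simp only [RingHom.id_apply, FunLike.coe_smul]
    rfl

@[simp] theorem coe_degeneracy (k : ℤ) [NeZero N] (h : M * d ∣ N)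
    (f : CuspForm (CongruenceSubgroup.Gamma0 M) k) : ⇑(degeneracy k h f) = dilate d ⇑f := rfl

theorem degeneracy_injective (k : ℤ) [NeZero N] (h : M * d ∣ N) :
    Function.Injective (degeneracy k h) := by
  intro f g hfg
  refine DFunLike.coe_injective (funext fun τ => ?_)
  have := congrArg (fun F : CuspForm (CongruenceSubgroup.Gamma0 N) k =>
    F ((heckeDiagMatrix d)⁻¹ • τ)) hfg
  simpa [dilate_apply] using this

theorem qParam_dilate {d : ℕ} (hd : d ≠ 0) (τ : ℍ) :
    Function.Periodic.qParam 1 ((heckeDiagMatrix d • τ : ℍ) : ℂ) =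
      Function.Periodic.qParam 1 (τ : ℂ) ^ d := by
  rw [coe_heckeDiagMatrix_smul hd, Function.Periodic.qParam, Function.Periodic.qParam,
    ← Complex.exp_nat_mul]
  congr 1
  simp
  ring

/-- The `q`-coefficients of `f(d τ)`. -/
theorem qCoeff_degeneracy (k : ℤ) [NeZero N] (h : M * d ∣ N)
    (f : CuspForm (CongruenceSubgroup.Gamma0 M) k) (n : ℕ) :
    qCoeff (degeneracy k h f) n = if d ∣ n then qCoeff f (n / d) else 0 := by
  have := neZero_left_of_mul_dvd h
  have hd := ne_zero_right_of_mul_dvd h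
  refine (ModularFormClass.qExpansion_coeff_unique one_pos
    (CongruenceSubgroup.one_mem_strictPeriods_Gamma0 N)
    (c := fun n => if d ∣ n then qCoeff f (n / d) else 0)
    (f := degeneracy k h f) (fun τ => ?_) n).symm
  have hinj : Function.Injective fun m : ℕ => d * m :=
    fun a b hab => Nat.eq_of_mul_eq_mul_left (Nat.pos_of_ne_zero hd) hab
  refine (hinj.hasSum_iff fun x hx => ?_).mp ?_
  · rw [if_neg (fun hdx => hx ⟨x / d, Nat.mul_div_cancel' hdx⟩), zero_smul]
  · have := ModularForm.hasSum_qExpansion f one_pos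
      (CongruenceSubgroup.one_mem_strictPeriods_Gamma0 M) (heckeDiagMatrix d • τ)
    simpa [Function.comp_def, Nat.mul_div_cancel_left _ (Nat.pos_of_ne_zero hd), qParam_dilate hd,
      qCoeff, pow_mul, dilate_apply] using this

theorem qCoeff_degeneracy_mul (k : ℤ) [NeZero N] (h : M * d ∣ N)
    (f : CuspForm (CongruenceSubgroup.Gamma0 M) k) (n : ℕ) :
    qCoeff (degeneracy k h f) (d * n) = qCoeff f n := by
  rw [qCoeff_degeneracy, if_pos (dvd_mul_right d n),
    Nat.mul_div_cancel_left _ (Nat.pos_of_ne_zero (ne_zero_right_of_mul_dvd h))]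

theorem cuspForm_ext_qCoeff {k : ℤ} [NeZero N] {f g : CuspForm (CongruenceSubgroup.Gamma0 N) k}
    (h : ∀ n, qCoeff f n = qCoeff g n) : f = g :=
  DFunLike.coe_injective <| UpperHalfPlane.eq_of_forall_qCoeff_eq
    (SlashInvariantFormClass.periodic_comp_ofComplex f
      (CongruenceSubgroup.one_mem_strictPeriods_Gamma0 N))
    (CuspFormClass.holo f) (ModularFormClass.bdd_at_infty f)
    (SlashInvariantFormClass.periodic_comp_ofComplex g
      (CongruenceSubgroup.one_mem_strictPeriods_Gamma0 N))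
    (CuspFormClass.holo g) (ModularFormClass.bdd_at_infty g) h

/-- The degeneracy map commutes with `T_p` for `p` prime to the target level. -/
theorem heckeTLin_degeneracy (k : ℤ) [NeZero N] (h : M * d ∣ N) {p : ℕ} (hp : p.Prime)
    (hpN : ¬ p ∣ N) (f : CuspForm (CongruenceSubgroup.Gamma0 M) k) :
    CuspForm.heckeTLin k hp hpN (degeneracy k h f) =
      degeneracy k h (CuspForm.heckeTLin k hp
        (fun hpM => hpN ((dvd_mul_of_dvd_left hpM d).trans h)) f) := by
  have := neZero_left_of_mul_dvd h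
  have hd := ne_zero_right_of_mul_dvd h
  have hpd : Nat.Coprime d p :=
    (hp.coprime_iff_not_dvd.mpr fun hh => hpN ((dvd_mul_of_dvd_right hh M).trans h)).symm
  apply cuspForm_ext_qCoeff
  intro n
  rw [CuspForm.coe_heckeTLin_apply, qCoeff_heckeT (degeneracy k h f)
    (CongruenceSubgroup.one_mem_strictPeriods_Gamma0 N) hp.ne_zero,
    qCoeff_degeneracy k h _ n, coeffHeckeT, qCoeff_degeneracy, qCoeff_degeneracy,
    CuspForm.coe_heckeTLin_apply,
    qCoeff_heckeT f (CongruenceSubgroup.one_mem_strictPeriods_Gamma0 M) hp.ne_zero, coeffHeckeT]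
  by_cases hdn : d ∣ n
  · obtain ⟨m, rfl⟩ := hdn
    have hpm : p ∣ d * m ↔ p ∣ m :=
      ⟨fun hh => (Nat.Coprime.dvd_mul_left hpd.symm).mp hh, fun hh => dvd_mul_of_dvd_right hh d⟩
    rw [if_pos (dvd_mul_of_dvd_left (dvd_mul_right d m) p), if_pos (dvd_mul_right d m),
      Nat.mul_div_cancel_left _ (Nat.pos_of_ne_zero hd), mul_assoc,
      Nat.mul_div_cancel_left _ (Nat.pos_of_ne_zero hd)]
    simp only [hpm]
    congr 1
    split_ifs with h1 h2
    · rw [Nat.mul_div_assoc d h1, Nat.mul_div_cancel_left _ (Nat.pos_of_ne_zero hd)]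
    · exact absurd (by rw [Nat.mul_div_assoc d h1]; exact dvd_mul_right _ _) h2
    · rfl
  · rw [if_neg hdn, if_neg (fun hh => hdn (hpd.dvd_of_dvd_mul_right hh))]
    split_ifs with h1 h2
    · exact absurd (h2.trans (Nat.div_dvd_of_dvd h1)) hdn
    · simp
    · simp

/-- The degeneracy map commutes with `U_q` for `q` dividing both levels and prime to `d`. -/
theorem heckeULin_degeneracy (k : ℤ) [NeZero N] [NeZero M] (h : M * d ∣ N) {q : ℕ}
    (hqM : q ∣ M) (hqd : Nat.Coprime d q) (f : CuspForm (CongruenceSubgroup.Gamma0 M) k) :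
    CuspForm.heckeULin k ((dvd_mul_of_dvd_left hqM d).trans h) (degeneracy k h f) =
      degeneracy k h (CuspForm.heckeULin k hqM f) := by
  have hd := ne_zero_right_of_mul_dvd h
  have hq0 : q ≠ 0 := fun h0 => NeZero.ne M (by simpa [h0] using hqM)
  apply cuspForm_ext_qCoeff
  intro n
  rw [CuspForm.coe_heckeULin_apply, qCoeff_heckeU (degeneracy k h f)
    (CongruenceSubgroup.one_mem_strictPeriods_Gamma0 N) hq0,
    qCoeff_degeneracy k h _ n, coeffHeckeU_apply, qCoeff_degeneracy,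
    CuspForm.coe_heckeULin_apply,
    qCoeff_heckeU f (CongruenceSubgroup.one_mem_strictPeriods_Gamma0 M) hq0, coeffHeckeU_apply]
  by_cases hdn : d ∣ n
  · obtain ⟨m, rfl⟩ := hdn
    rw [if_pos (dvd_mul_of_dvd_left (dvd_mul_right d m) q), if_pos (dvd_mul_right d m),
      Nat.mul_div_cancel_left _ (Nat.pos_of_ne_zero hd), mul_assoc,
      Nat.mul_div_cancel_left _ (Nat.pos_of_ne_zero hd)]
  · rw [if_neg hdn, if_neg (fun hh => hdn (hqd.dvd_of_dvd_mul_right hh))]

/-- Inclusion of level `M` cusp forms into level `N` for `M ∣ N`. -/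
def levelInclusion (k : ℤ) [NeZero N] (h : M ∣ N) :
    CuspForm (CongruenceSubgroup.Gamma0 M) k →ₗ[ℂ] CuspForm (CongruenceSubgroup.Gamma0 N) k :=
  degeneracy k (d := 1) (by rwa [mul_one])

theorem qCoeff_levelInclusion (k : ℤ) [NeZero N] (h : M ∣ N)
    (f : CuspForm (CongruenceSubgroup.Gamma0 M) k) (n : ℕ) :
    qCoeff (levelInclusion k h f) n = qCoeff f n := by
  rw [levelInclusion, qCoeff_degeneracy, if_pos (one_dvd n), Nat.div_one]

@[simp] theorem coe_levelInclusion (k : ℤ) [NeZero N] (h : M ∣ N)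
    (f : CuspForm (CongruenceSubgroup.Gamma0 M) k) : ⇑(levelInclusion k h f) = ⇑f := by
  rw [levelInclusion, coe_degeneracy]
  funext τ
  rw [dilate_apply]
  congr 1
  ext
  simp [coe_heckeDiagMatrix_smul]

end Fermat.Agent.Newform

end
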