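import Mathlib
import Fermat.Prelude.Def_CuspForm_Newforms

/-!
# Descent of eigenforms to newforms

Every normalised weight two eigenform of level `N` has the same good eigenvalues (primes not
dividing `N`) as some newform of level `M ∣ N`.
-/

set_option autoImplicit false

namespace Fermat.Agent.Newform

open CuspForm ModularFormClass

variable {N M : ℕ}

theorem goodOccurs_trans {f : CuspForm (CongruenceSubgroup.Gamma0 N) 2}
    {g : CuspForm (CongruenceSubgroup.Gamma0 M) 2} {L : ℕ}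
    (hfg : ∀ ℓ : ℕ, ℓ.Prime → ¬ ℓ ∣ N → qCoeff g ℓ = qCoeff f ℓ)
    (hMN : M ∣ N) (hg : GoodEigensystemOccursAt g L) : GoodEigensystemOccursAt f L := by
  obtain ⟨h, hh, heq⟩ := hg
  exact ⟨h, hh, fun ℓ hℓ hℓN =>
    (heq ℓ hℓ fun hℓM => hℓN (hℓM.trans hMN)).trans (hfg ℓ hℓ hℓN)⟩

/-- Every normalised eigenform has a newform of dividing level with the same good eigenvalues. -/
theorem exists_newform_of_eigenform [NeZero N] {f : CuspForm (CongruenceSubgroup.Gamma0 N) 2}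
    (hf : f.IsNormalizedEigenform) :
    ∃ M : ℕ, M ∣ N ∧ 0 < M ∧ ∃ g : CuspForm (CongruenceSubgroup.Gamma0 M) 2,
      g.IsNewform ∧ ∀ ℓ : ℕ, ℓ.Prime → ¬ ℓ ∣ N → qCoeff g ℓ = qCoeff f ℓ := by
  classical
  have hex : ∃ M, M ∣ N ∧ GoodEigensystemOccursAt f M :=
    ⟨N, dvd_rfl, GoodEigensystemOccursAt.refl hf⟩
  obtain ⟨hdvd, g, hg, hgeq⟩ := Nat.find_spec hex
  have hpos : 0 < Nat.find hex := Nat.pos_of_dvd_of_pos hdvd (NeZero.pos N)
  refine ⟨Nat.find hex, hdvd, hpos, g, ⟨hg, fun M' hM' hne hocc => ?_⟩, hgeq⟩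
  exact Nat.find_min hex (lt_of_le_of_ne (Nat.le_of_dvd hpos hM') hne)
    ⟨hM'.trans hdvd, goodOccurs_trans hgeq hdvd hocc⟩

/-- A newform's good eigensystem occurs at a divisor of its level only at the level itself. -/
theorem eq_of_goodOccurs_of_isNewform {f : CuspForm (CongruenceSubgroup.Gamma0 N) 2}
    (hf : f.IsNewform) (hMN : M ∣ N) (h : GoodEigensystemOccursAt f M) : M = N := by
  by_contra hne
  exact hf.2 M hMN hne h

/-- A modular integral model is attached to a newform of dividing level. -/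
theorem exists_newform_of_isModularModelOfLevel {W : WeierstrassCurve ℤ} [NeZero N]
    (h : W.IsModularModelOfLevel N) :
    ∃ M : ℕ, M ∣ N ∧ 0 < M ∧ ∃ g : CuspForm (CongruenceSubgroup.Gamma0 M) 2,
      g.IsNewform ∧ ∀ ℓ : ℕ, ℓ.Prime → W.IsGoodPrimeFor ℓ → ¬ ℓ ∣ N →
        qCoeff g ℓ = (W.apOfModel ℓ : ℂ) := by
  obtain ⟨f, hf, hfW⟩ := h
  obtain ⟨M, hM, hMpos, g, hg, hgf⟩ := exists_newform_of_eigenform hf
  exact ⟨M, hM, hMpos, g, hg, fun ℓ hℓ hgood hℓN => (hgf ℓ hℓ hℓN).trans (hfW ℓ hℓ hgood hℓN)⟩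

/-- A residually modular integral model is attached to a newform of dividing level. -/
theorem exists_newform_of_isResiduallyModularOfLevel {W : WeierstrassCurve ℤ} {p : ℕ} [NeZero N]
    (h : W.IsResiduallyModularOfLevel p N) :
    ∃ M : ℕ, M ∣ N ∧ 0 < M ∧ ∃ (g : CuspForm (CongruenceSubgroup.Gamma0 M) 2)
      (𝔪 : Ideal (integralClosure ℤ ℂ)),
      g.IsNewform ∧ 𝔪.IsMaximal ∧ (p : integralClosure ℤ ℂ) ∈ 𝔪 ∧
        ∀ ℓ : ℕ, ℓ.Prime → W.IsGoodPrimeFor ℓ → ¬ ℓ ∣ N → ℓ ≠ p →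
          ∃ a : integralClosure ℤ ℂ, (a : ℂ) = qCoeff g ℓ ∧
            a - ((W.apOfModel ℓ : ℤ) : integralClosure ℤ ℂ) ∈ 𝔪 := by
  obtain ⟨f, 𝔪, hf, hmax, hp, hcong⟩ := h
  obtain ⟨M, hM, hMpos, g, hg, hgf⟩ := exists_newform_of_eigenform hf
  refine ⟨M, hM, hMpos, g, 𝔪, hg, hmax, hp, fun ℓ hℓ hgood hℓN hℓp => ?_⟩
  obtain ⟨a, ha, hmem⟩ := hcong ℓ hℓ hgood hℓN hℓp
  exact ⟨a, ha.trans (hgf ℓ hℓ hℓN).symm, hmem⟩

end Fermat.Agent.Newform
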