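import Mathlib.NumberTheory.ModularForms.CongruenceSubgroups
import Fermat.Prelude.Def_ModularForm_HeckeOperator

/-!
# Coset combinatorics for the Atkin–Lehner element

Integer `2 × 2` matrices acting by slash; permutation of coset representatives.
-/

set_option autoImplicit false

noncomputable section

open Matrix UpperHalfPlane
open scoped MatrixGroups ModularForm

namespace Fermat.Agent.Newform

/-- An integer matrix of nonzero determinant as an element of `GL₂(ℝ)` (junk value `1`). -/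
def atkinGL (X : Matrix (Fin 2) (Fin 2) ℤ) : GL (Fin 2) ℝ :=
  if h : X.det ≠ 0 then
    Matrix.GeneralLinearGroup.mkOfDetNeZero (X.map (Int.castRingHom ℝ))
      (by rw [← RingHom.mapMatrix_apply, ← RingHom.map_det]; simpa using h)
  else 1

lemma val_atkinGL {X : Matrix (Fin 2) (Fin 2) ℤ} (h : X.det ≠ 0) :
    (atkinGL X : Matrix (Fin 2) (Fin 2) ℝ) = X.map (Int.castRingHom ℝ) := by
  rw [atkinGL, dif_pos h]
  rfl

lemma atkinGL_mul {X Y : Matrix (Fin 2) (Fin 2) ℤ} (hX : X.det ≠ 0) (hY : Y.det ≠ 0) :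
    atkinGL (X * Y) = atkinGL X * atkinGL Y := by
  apply Units.ext
  rw [Units.val_mul, val_atkinGL hX, val_atkinGL hY,
    val_atkinGL (by rw [Matrix.det_mul]; exact mul_ne_zero hX hY), Matrix.map_mul]

lemma atkinGL_coe_SL (g : SL(2, ℤ)) :
    atkinGL (g : Matrix (Fin 2) (Fin 2) ℤ) = Matrix.SpecialLinearGroup.mapGL ℝ g := by
  apply Units.ext
  rw [val_atkinGL (by simp)]
  ext i j
  simp

lemma atkinGL_det_pos {X : Matrix (Fin 2) (Fin 2) ℤ} (h : 0 < X.det) :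
    0 < ((atkinGL X).det : ℝ) := by
  rw [Matrix.GeneralLinearGroup.val_det_apply, val_atkinGL h.ne', ← RingHom.mapMatrix_apply,
    ← RingHom.map_det]
  simpa using h

variable {N : ℕ} {k : ℤ} {f : ℍ → ℂ}

/-- Invariance under the image of `Γ₀(N)` in `GL₂(ℝ)`. -/
def AtkinInvariant (N : ℕ) (k : ℤ) (f : ℍ → ℂ) : Prop :=
  ∀ γ ∈ (CongruenceSubgroup.Gamma0 N : Subgroup (GL (Fin 2) ℝ)), f ∣[k] γ = f

lemma AtkinInvariant.slash_atkinGL (hf : AtkinInvariant N k f) {γ : Matrix (Fin 2) (Fin 2) ℤ}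
    (h1 : γ.det = 1) (h2 : (N : ℤ) ∣ γ 1 0) : f ∣[k] atkinGL γ = f := by
  have : atkinGL γ = Matrix.SpecialLinearGroup.mapGL ℝ (⟨γ, h1⟩ : SL(2, ℤ)) :=
    atkinGL_coe_SL ⟨γ, h1⟩
  rw [this]
  refine hf _ (Subgroup.mem_map_of_mem _ ?_)
  rw [CongruenceSubgroup.Gamma0_mem]
  exact (ZMod.intCast_zmod_eq_zero_iff_dvd _ _).mpr h2

lemma AtkinInvariant.slash_atkinGL_mul (hf : AtkinInvariant N k f)
    {γ X : Matrix (Fin 2) (Fin 2) ℤ} (h1 : γ.det = 1) (h2 : (N : ℤ) ∣ γ 1 0) (hX : X.det ≠ 0) :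
    f ∣[k] atkinGL (γ * X) = f ∣[k] atkinGL X := by
  rw [atkinGL_mul (by rw [h1]; exact one_ne_zero) hX, SlashAction.slash_mul,
    hf.slash_atkinGL h1 h2]

lemma atkinInvariant_iff_atkinGL :
    AtkinInvariant N k f ↔ ∀ γ : Matrix (Fin 2) (Fin 2) ℤ, γ.det = 1 → (N : ℤ) ∣ γ 1 0 →
      f ∣[k] atkinGL γ = f := by
  refine ⟨fun hf γ h1 h2 => hf.slash_atkinGL h1 h2, fun h γ hγ => ?_⟩
  obtain ⟨g, hg, rfl⟩ := hγ
  rw [← atkinGL_coe_SL]
  exact h _ g.det_coe
    ((ZMod.intCast_zmod_eq_zero_iff_dvd _ _).mp (CongruenceSubgroup.Gamma0_mem.mp hg))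

/-- The product of `Γ₀(N)`-matrices is again one. -/
lemma atkin_mem_mul {a b : Matrix (Fin 2) (Fin 2) ℤ} (ha : (N : ℤ) ∣ a 1 0)
    (hb : (N : ℤ) ∣ b 1 0) : (N : ℤ) ∣ (a * b) 1 0 := by
  rw [Matrix.mul_apply, Fin.sum_univ_two]
  exact dvd_add (ha.mul_right _) (hb.mul_left _)

lemma atkin_mem_adjugate {a : Matrix (Fin 2) (Fin 2) ℤ} (ha : (N : ℤ) ∣ a 1 0) :
    (N : ℤ) ∣ (Matrix.adjugate a) 1 0 := by
  simpa [Matrix.adjugate_fin_two] using ha.neg_right

/-- A sum of slashes over `L` equals the one over `R` when each `L i` is a `Γ₀(N)`-translate of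
some `R j` and distinct `L i` are inequivalent. -/
lemma AtkinInvariant.sum_slash_eq (hf : AtkinInvariant N k f) {ι : Type*} [Fintype ι]
    (L R : ι → Matrix (Fin 2) (Fin 2) ℤ) (hR : ∀ i, (R i).det ≠ 0)
    (hex : ∀ i, ∃ (j : ι) (γ : Matrix (Fin 2) (Fin 2) ℤ),
      γ.det = 1 ∧ (N : ℤ) ∣ γ 1 0 ∧ L i = γ * R j)
    (hinj : ∀ i j, ∀ γ : Matrix (Fin 2) (Fin 2) ℤ,
      γ.det = 1 → (N : ℤ) ∣ γ 1 0 → L i = γ * L j → i = j) :
    ∑ i, f ∣[k] atkinGL (L i) = ∑ i, f ∣[k] atkinGL (R i) := by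
  choose π γ hγ1 hγ2 hγ3 using hex
  have hπ : Function.Injective π := by
    intro i j hij
    refine hinj i j (γ i * (γ j).adjugate) ?_ ?_ ?_
    · rw [Matrix.det_mul, hγ1, Matrix.det_adjugate, hγ1, one_pow, one_mul]
    · exact atkin_mem_mul (hγ2 i) (atkin_mem_adjugate (hγ2 j))
    · rw [hγ3 i, hij, hγ3 j, Matrix.mul_assoc, ← Matrix.mul_assoc (γ j).adjugate,
        Matrix.adjugate_mul, hγ1 j, one_smul, Matrix.one_mul]
  rw [Finset.sum_congr rfl fun i _ => by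
    rw [hγ3 i, hf.slash_atkinGL_mul (hγ1 i) (hγ2 i) (hR _)]]
  exact Equiv.sum_comp (Equiv.ofBijective π (Finite.injective_iff_bijective.mp hπ))
    (fun i => f ∣[k] atkinGL (R i))

/-! ### Representatives -/

/-- `(1 j; 0 n)`. -/
def atkinUpper (n : ℕ) (j : Fin n) : Matrix (Fin 2) (Fin 2) ℤ := !![1, (j : ℤ); 0, (n : ℤ)]

/-- `(n 0; 0 1)`. -/
def atkinDiag (n : ℕ) : Matrix (Fin 2) (Fin 2) ℤ := !![(n : ℤ), 0; 0, 1]

lemma det_atkinUpper (n : ℕ) (j : Fin n) : (atkinUpper n j).det = n := by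
  simp [atkinUpper, Matrix.det_fin_two_of]

lemma det_atkinDiag (n : ℕ) : (atkinDiag n).det = n := by
  simp [atkinDiag, Matrix.det_fin_two_of]

lemma atkinGL_upper (n : ℕ) (j : Fin n) : atkinGL (atkinUpper n j) = ModularForm.heckeMatrix n j := by
  have hn : n ≠ 0 := by
    intro h
    exact absurd j.isLt (by omega)
  apply Units.ext
  rw [val_atkinGL (by rw [det_atkinUpper]; exact_mod_cast hn), ModularForm.val_heckeMatrix hn]
  ext a b
  fin_cases a <;> fin_cases b <;> simp [atkinUpper]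

lemma atkinGL_diag {n : ℕ} (hn : n ≠ 0) : atkinGL (atkinDiag n) = ModularForm.heckeDiagMatrix n := by
  apply Units.ext
  rw [val_atkinGL (by rw [det_atkinDiag]; exact_mod_cast hn), ModularForm.val_heckeDiagMatrix hn]
  ext a b
  fin_cases a <;> fin_cases b <;> simp [atkinDiag]

lemma heckeU_eq_sum_atkinGL (k : ℤ) (n : ℕ) (f : ℍ → ℂ) :
    ModularForm.heckeU k n f = ∑ j : Fin n, f ∣[k] atkinGL (atkinUpper n j) := by
  rw [ModularForm.heckeU_def, Finset.sum_range]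
  exact Finset.sum_congr rfl fun j _ => by rw [atkinGL_upper]

/-- `q ≡ 0`: representatives for `U` and an extra matrix. -/
def atkinRep {n : ℕ} (E : Matrix (Fin 2) (Fin 2) ℤ) : Option (Fin n) → Matrix (Fin 2) (Fin 2) ℤ :=
  fun i => i.elim E (atkinUpper n)

lemma sum_slash_atkinRep (k : ℤ) {n : ℕ} (E : Matrix (Fin 2) (Fin 2) ℤ) (f : ℍ → ℂ) :
    ∑ i : Option (Fin n), f ∣[k] atkinGL (atkinRep E i) =
      ModularForm.heckeU k n f + f ∣[k] atkinGL E := by
  rw [Fintype.sum_option, heckeU_eq_sum_atkinGL, add_comm]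
  rfl

lemma heckeT_eq_sum_atkinGL (k : ℤ) {n : ℕ} (hn : n ≠ 0) (f : ℍ → ℂ) :
    ModularForm.heckeT k n f =
      ∑ i : Option (Fin n), f ∣[k] atkinGL (atkinRep (atkinDiag n) i) := by
  rw [sum_slash_atkinRep, atkinGL_diag hn, ModularForm.heckeT_eq_heckeU_add]

lemma atkinUpper_injective {n : ℕ} {i j : Fin n} {γ : Matrix (Fin 2) (Fin 2) ℤ}
    (h : atkinUpper n i = γ * atkinUpper n j) : i = j := by
  have h00 := congrFun (congrFun h 0) 0
  have h01 := congrFun (congrFun h 0) 1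
  simp [atkinUpper, Matrix.mul_apply, Fin.sum_univ_two] at h00 h01
  rw [← h00, one_mul] at h01
  apply Fin.ext
  have hmod : ((i : ℤ)) % n = (j : ℤ) % n := by rw [h01, Int.add_mul_emod_self_right]
  rw [Int.emod_eq_of_lt (by positivity) (by exact_mod_cast i.isLt),
    Int.emod_eq_of_lt (by positivity) (by exact_mod_cast j.isLt)] at hmod
  exact_mod_cast hmod

/-- If `n ∤ a`-type data: a matrix with first column prime to `n` factors through some `(1 j;0 n)`. -/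
lemma exists_atkinUpper_factor {n : ℕ} (hn : n ≠ 0) (X : Matrix (Fin 2) (Fin 2) ℤ) (t : ℤ)
    (ht : (n : ℤ) ∣ X 0 1 - X 0 0 * t) (ht' : (n : ℤ) ∣ X 1 1 - X 1 0 * t) (hX : X.det = n) :
    ∃ (j : Fin n) (γ : Matrix (Fin 2) (Fin 2) ℤ),
      γ.det = 1 ∧ γ 1 0 = X 1 0 ∧ X = γ * atkinUpper n j := by
  have hn' : (n : ℤ) ≠ 0 := by exact_mod_cast hn
  have h0 := Int.emod_nonneg t hn'
  have h1 : t % (n : ℤ) < n := Int.emod_lt_of_pos t (by omega)
  refine ⟨⟨(t % (n : ℤ)).toNat, by omega⟩, ?_⟩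
  obtain ⟨e, he⟩ := ht
  obtain ⟨d, hd⟩ := ht'
  have htdiv := Int.emod_add_mul_ediv t (n : ℤ)
  set r := t % (n : ℤ)
  set s := t / (n : ℤ)
  have hfac : X = !![X 0 0, e + X 0 0 * s; X 1 0, d + X 1 0 * s] * atkinUpper n ⟨r.toNat, by omega⟩ := by
    ext a b
    fin_cases a <;> fin_cases b <;>
      simp [atkinUpper, Matrix.mul_apply, Fin.sum_univ_two, max_eq_left h0]
    · linear_combination he - (X 0 0) * htdiv
    · linear_combination hd - (X 1 0) * htdiv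
  refine ⟨!![X 0 0, e + X 0 0 * s; X 1 0, d + X 1 0 * s], ?_, by simp, hfac⟩
  have := congrArg Matrix.det hfac
  rw [Matrix.det_mul, det_atkinUpper, hX] at this
  exact mul_right_cancel₀ hn' (by rw [one_mul]; exact this.symm)

/-- Lowering the level by `U_q`: if `q ∣ M` then `U_q` maps level `qM` to level `M`. -/
lemma AtkinInvariant.heckeU_of_dvd {M q : ℕ} (hq : q ≠ 0) (hqM : q ∣ M) (hN : N = q * M)
    (hf : AtkinInvariant N k f) : AtkinInvariant M k (ModularForm.heckeU k q f) := by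
  rw [atkinInvariant_iff_atkinGL]
  intro g hg1 hg2
  have hq' : (q : ℤ) ≠ 0 := by exact_mod_cast hq
  rw [heckeU_eq_sum_atkinGL, SlashAction.sum_slash,
    Finset.sum_congr rfl fun j _ => by
      rw [← SlashAction.slash_mul,
        ← atkinGL_mul (by rw [det_atkinUpper]; exact hq') (by rw [hg1]; exact one_ne_zero)]]
  refine hf.sum_slash_eq _ _ (fun i => by rw [det_atkinUpper]; exact hq') (fun i => ?_) ?_
  · have hdet : (atkinUpper q i * g).det = q := by rw [Matrix.det_mul, det_atkinUpper, hg1, mul_one]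
    obtain ⟨c, hc⟩ := (Int.natCast_dvd_natCast.mpr hqM).trans hg2
    have hd := hg1
    rw [Matrix.det_fin_two] at hd
    have ht : (q : ℤ) ∣ (atkinUpper q i * g) 0 1 -
        (atkinUpper q i * g) 0 0 * ((g 0 1 + (i : ℤ) * g 1 1) * g 1 1) := by
      refine ⟨-(g 0 1 + (i : ℤ) * g 1 1) * (g 0 1 + (i : ℤ) * g 1 1) * c, ?_⟩
      simp [atkinUpper, Matrix.mul_apply, Fin.sum_univ_two]
      linear_combination (-(g 0 1 + (i : ℤ) * g 1 1)) * hd
        - (g 0 1 + (i : ℤ) * g 1 1) * (g 0 1 + (i : ℤ) * g 1 1) * hc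
    have ht' : (q : ℤ) ∣ (atkinUpper q i * g) 1 1 -
        (atkinUpper q i * g) 1 0 * ((g 0 1 + (i : ℤ) * g 1 1) * g 1 1) := by
      refine ⟨g 1 1 - g 1 0 * ((g 0 1 + (i : ℤ) * g 1 1) * g 1 1), ?_⟩
      simp [atkinUpper, Matrix.mul_apply, Fin.sum_univ_two]
      ring
    obtain ⟨j, γ, h1, h2, h3⟩ := exists_atkinUpper_factor hq (atkinUpper q i * g) _ ht ht' hdet
    refine ⟨j, γ, h1, ?_, h3⟩
    rw [h2, hN]
    simpa [atkinUpper, Matrix.mul_apply, Fin.sum_univ_two] using mul_dvd_mul_left (q : ℤ) hg2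
  · intro i j γ _ _ h
    have hcancel := congrArg (· * g.adjugate) h
    simp only [Matrix.mul_assoc, Matrix.mul_adjugate, hg1, one_smul, Matrix.mul_one] at hcancel
    exact atkinUpper_injective hcancel

end Fermat.Agent.Newform
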