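import Mathlib.Data.Nat.Prime.Int
import Mathlib.RingTheory.Int.Basic
import Fermat.Agent.Newform.AtkinMatrix

/-!
# The Atkin–Lehner element at a prime exactly dividing the level

For `N = qM`, `q` prime, `q ∤ M`: the element `W`, the trace identity
`f|W + U_q f` has level `M`, commutation with `T_ℓ`, and `f|W|W = f` in weight two.
-/

set_option autoImplicit false

noncomputable section

open Matrix UpperHalfPlane
open scoped MatrixGroups ModularForm

namespace Fermat.Agent.Newform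

/-- Atkin–Lehner data for `N = qM` with `q` prime, `q ∤ M`: a Bézout pair. -/
structure AtkinData (q M : ℕ) where
  u : ℤ
  v : ℤ
  prime : q.Prime
  bezout : (q : ℤ) * u + (M : ℤ) * v = 1

lemma exists_atkinData {q M : ℕ} (hq : q.Prime) (hM : ¬ q ∣ M) : Nonempty (AtkinData q M) := by
  obtain ⟨a, b, hab⟩ := Nat.isCoprime_iff_coprime.mpr (hq.coprime_iff_not_dvd.mpr hM)
  exact ⟨⟨a, b, hq, by linear_combination hab⟩⟩

namespace AtkinData

variable {q M : ℕ} (D : AtkinData q M)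

/-- The Atkin–Lehner matrix `(q, -v; qM, qu)` of determinant `q`. -/
def W : Matrix (Fin 2) (Fin 2) ℤ := !![(q : ℤ), -D.v; (q : ℤ) * M, (q : ℤ) * D.u]

lemma det_W : D.W.det = q := by
  rw [W, Matrix.det_fin_two_of]
  linear_combination (q : ℤ) * D.bezout

include D in
lemma qne : (q : ℤ) ≠ 0 := by exact_mod_cast D.prime.ne_zero

lemma det_W_ne : D.W.det ≠ 0 := by rw [det_W]; exact D.qne

include D in
lemma not_dvd_one : ¬ (q : ℤ) ∣ 1 := by
  intro h
  have h1 : q ∣ 1 := by exact_mod_cast h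
  exact D.prime.one_lt.ne' (Nat.dvd_one.mp h1)

/-- `W² = q γ₀` with `γ₀ ∈ Γ₀(qM)`. -/
def γ₀ : Matrix (Fin 2) (Fin 2) ℤ :=
  !![(q : ℤ) - M * D.v, -D.v * (1 + D.u); (q : ℤ) * M * (1 + D.u), -(M : ℤ) * D.v + q * D.u ^ 2]

lemma W_mul_W : D.W * D.W = (q : ℤ) • D.γ₀ := by
  ext i j
  fin_cases i <;> fin_cases j <;>
    simp [W, γ₀, Matrix.mul_apply, Fin.sum_univ_two] <;> ring

lemma det_γ₀ : D.γ₀.det = 1 := by
  have h := congrArg Matrix.det D.W_mul_W
  rw [Matrix.det_mul, det_W, Matrix.det_smul, Fintype.card_fin] at h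
  refine mul_left_cancel₀ (pow_ne_zero 2 D.qne) ?_
  linear_combination -h

lemma γ₀_mem : ((q * M : ℕ) : ℤ) ∣ D.γ₀ 1 0 := by
  simp [γ₀]

/-- Conjugation by `W` preserves `{det = n, qM ∣ c}`. -/
lemma exists_W_mul (X : Matrix (Fin 2) (Fin 2) ℤ) (hX : ((q * M : ℕ) : ℤ) ∣ X 1 0) :
    ∃ Y : Matrix (Fin 2) (Fin 2) ℤ,
      ((q * M : ℕ) : ℤ) ∣ Y 1 0 ∧ Y.det = X.det ∧ D.W * X = Y * D.W := by
  obtain ⟨c, hc⟩ := hX
  push_cast at hc
  set a := X 0 0
  set b := X 0 1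
  set d := X 1 1
  have h : D.W * X = !![(q * a - D.v * (q * M) * c) * D.u - M * (q * b - D.v * d),
        (a - D.v * M * c) * D.v + (q * b - D.v * d);
      (q * M : ℤ) * ((a + q * D.u * c) * D.u - M * b - D.u * d),
        (M * a + D.u * (q * M) * c) * D.v + (q * M) * b + q * D.u * d] * D.W := by
    ext i j
    fin_cases i <;> fin_cases j <;>
      simp [W, Matrix.mul_apply, Fin.sum_univ_two, hc]
    · linear_combination (-((q : ℤ) * a - D.v * q * M * c)) * D.bezout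
    · linear_combination (-((q : ℤ) * b - D.v * d)) * D.bezout
    · linear_combination (-((q : ℤ) * M * a + q * M * q * D.u * c)) * D.bezout
    · linear_combination (-((q : ℤ) * M * b + q * D.u * d)) * D.bezout
  refine ⟨_, ?_, ?_, h⟩
  · simp
  · have := congrArg Matrix.det h
    rw [Matrix.det_mul, Matrix.det_mul] at this
    exact mul_right_cancel₀ D.det_W_ne (by rw [← this, mul_comm])

/-- Matrices of determinant `q`, level-`qM` lower left and lower right entry divisible by `q`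
factor through `U_q`-representatives and `W`. -/
lemma exists_factor (X : Matrix (Fin 2) (Fin 2) ℤ) (h10 : ((q * M : ℕ) : ℤ) ∣ X 1 0)
    (h11 : (q : ℤ) ∣ X 1 1) (hdet : X.det = q) :
    ∃ (j : Option (Fin q)) (γ : Matrix (Fin 2) (Fin 2) ℤ),
      γ.det = 1 ∧ ((q * M : ℕ) : ℤ) ∣ γ 1 0 ∧ X = γ * atkinRep D.W j := by
  obtain ⟨c, hc⟩ := h10
  obtain ⟨d, hd⟩ := h11
  push_cast at hc
  by_cases h00 : (q : ℤ) ∣ X 0 0
  · obtain ⟨a, ha⟩ := h00
    have hfac : X = !![(q : ℤ) * D.u * a - M * X 0 1, a * D.v + X 0 1;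
        (q : ℤ) * M * (c * D.u - d), M * c * D.v + q * d] * D.W := by
      ext i j
      fin_cases i <;> fin_cases j <;>
        simp [W, Matrix.mul_apply, Fin.sum_univ_two, ha, hc, hd]
      · linear_combination (-((q : ℤ) * a)) * D.bezout
      · linear_combination (-(X 0 1)) * D.bezout
      · linear_combination (-((q : ℤ) * M * c)) * D.bezout
      · linear_combination (-((q : ℤ) * d)) * D.bezout
    refine ⟨none, _, ?_, ?_, hfac⟩
    · have := congrArg Matrix.det hfac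
      rw [Matrix.det_mul, det_W, hdet] at this
      exact mul_right_cancel₀ D.qne (by rw [one_mul]; exact this.symm)
    · simp
  · obtain ⟨α, β, hαβ⟩ := ((Nat.prime_iff_prime_int.1 D.prime)).coprime_iff_not_dvd.mpr h00
    have ht : (q : ℤ) ∣ X 0 1 - X 0 0 * (β * X 0 1) :=
      ⟨α * X 0 1, by linear_combination (-(X 0 1)) * hαβ⟩
    have ht' : (q : ℤ) ∣ X 1 1 - X 1 0 * (β * X 0 1) :=
      ⟨d - M * c * (β * X 0 1), by rw [hd, hc]; ring⟩
    obtain ⟨j, γ, h1, h2, h3⟩ := exists_atkinUpper_factor D.prime.ne_zero X _ ht ht' hdet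
    exact ⟨some j, γ, h1, by rw [h2, hc]; simp, h3⟩

lemma rep_injective {i j : Option (Fin q)} {γ : Matrix (Fin 2) (Fin 2) ℤ} (hγ : γ.det = 1)
    (h : atkinRep D.W i = γ * atkinRep D.W j) : i = j := by
  rw [Matrix.det_fin_two] at hγ
  rcases i with _ | i <;> rcases j with _ | j
  · rfl
  · exfalso
    have h00 := congrFun (congrFun h 0) 0
    have h10 := congrFun (congrFun h 1) 0
    simp [atkinRep, W, atkinUpper, Matrix.mul_apply, Fin.sum_univ_two] at h00 h10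
    rw [← h00, ← h10] at hγ
    exact D.not_dvd_one ⟨γ 1 1 - γ 0 1 * M, by linear_combination -hγ⟩
  · exfalso
    have h00 := congrFun (congrFun h 0) 0
    simp [atkinRep, W, atkinUpper, Matrix.mul_apply, Fin.sum_univ_two] at h00
    exact D.not_dvd_one ⟨γ 0 0 + γ 0 1 * M, by linear_combination h00⟩
  · exact congrArg some (atkinUpper_injective h)

lemma det_rep (i : Option (Fin q)) : (atkinRep D.W i).det = q := by
  rcases i with _ | i
  · exact D.det_W
  · exact det_atkinUpper q i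

/-- The trace identity: `U_q f + f|W` is of level `M`. -/
theorem heckeU_add_slash_W {k : ℤ} {f : ℍ → ℂ} (hf : AtkinInvariant (q * M) k f) :
    AtkinInvariant M k (ModularForm.heckeU k q f + f ∣[k] atkinGL D.W) := by
  rw [atkinInvariant_iff_atkinGL]
  intro g hg1 hg2
  rw [← sum_slash_atkinRep, SlashAction.sum_slash,
    Finset.sum_congr rfl fun j _ => by
      rw [← SlashAction.slash_mul,
        ← atkinGL_mul (by rw [D.det_rep]; exact D.qne) (by rw [hg1]; exact one_ne_zero)]]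
  refine hf.sum_slash_eq _ _ (fun i => by rw [D.det_rep]; exact D.qne) (fun i => ?_) ?_
  · obtain ⟨c, hc⟩ := hg2
    apply D.exists_factor
    · rcases i with _ | i <;>
        simp [atkinRep, W, atkinUpper, Matrix.mul_apply, Fin.sum_univ_two, hc]
      · exact ⟨D.u * c, by ring⟩
      · exact ⟨c, by ring⟩
    · rcases i with _ | i <;>
        simp [atkinRep, W, atkinUpper, Matrix.mul_apply, Fin.sum_univ_two, mul_assoc, ← mul_add]
    · rw [Matrix.det_mul, D.det_rep, hg1, mul_one]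
  · intro i j γ hγ _ h
    have hcancel := congrArg (· * g.adjugate) h
    simp only [Matrix.mul_assoc, Matrix.mul_adjugate, hg1, one_smul, Matrix.mul_one] at hcancel
    exact D.rep_injective hγ hcancel

end AtkinData

/-- Representatives of `T_ℓ`: existence of a factorisation. -/
lemma exists_heckeRep_factor {N ℓ : ℕ} (hℓ : ℓ.Prime) (hℓN : ¬ ℓ ∣ N)
    (X : Matrix (Fin 2) (Fin 2) ℤ) (h10 : (N : ℤ) ∣ X 1 0) (hdet : X.det = ℓ) :
    ∃ (j : Option (Fin ℓ)) (γ : Matrix (Fin 2) (Fin 2) ℤ),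
      γ.det = 1 ∧ (N : ℤ) ∣ γ 1 0 ∧ X = γ * atkinRep (atkinDiag ℓ) j := by
  have hp : Prime (ℓ : ℤ) := Nat.prime_iff_prime_int.1 hℓ
  have hd := hdet
  rw [Matrix.det_fin_two] at hd
  by_cases h00 : (ℓ : ℤ) ∣ X 0 0
  · by_cases hc : (ℓ : ℤ) ∣ X 1 0
    · obtain ⟨a, ha⟩ := h00
      obtain ⟨c, hc⟩ := hc
      refine ⟨none, !![a, X 0 1; c, X 1 1], ?_, ?_, ?_⟩
      · rw [Matrix.det_fin_two_of]
        exact mul_left_cancel₀ hp.ne_zero (by linear_combination hd - X 1 1 * ha + X 0 1 * hc)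
      · have hcop : IsCoprime (N : ℤ) (ℓ : ℤ) :=
          Nat.isCoprime_iff_coprime.mpr (hℓ.coprime_iff_not_dvd.mpr hℓN).symm
        simpa using hcop.dvd_of_dvd_mul_left (hc ▸ h10)
      · ext i j
        fin_cases i <;> fin_cases j <;>
          simp [atkinRep, atkinDiag, Matrix.mul_apply, Fin.sum_univ_two, ha, hc, mul_comm]
    · obtain ⟨α, β, hαβ⟩ := hp.coprime_iff_not_dvd.mpr hc
      obtain ⟨a, ha⟩ := h00
      have hb : (ℓ : ℤ) ∣ X 0 1 := by
        refine (hp.dvd_mul.mp ?_).resolve_right hc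
        exact ⟨a * X 1 1 - 1, by linear_combination -hd + X 1 1 * ha⟩
      obtain ⟨b, hb⟩ := hb
      have ht : (ℓ : ℤ) ∣ X 0 1 - X 0 0 * (β * X 1 1) :=
        ⟨b - a * (β * X 1 1), by rw [ha, hb]; ring⟩
      have ht' : (ℓ : ℤ) ∣ X 1 1 - X 1 0 * (β * X 1 1) :=
        ⟨α * X 1 1, by linear_combination (-(X 1 1)) * hαβ⟩
      obtain ⟨j, γ, h1, h2, h3⟩ := exists_atkinUpper_factor hℓ.ne_zero X _ ht ht' hdet
      exact ⟨some j, γ, h1, h2 ▸ h10, h3⟩
  · obtain ⟨α, β, hαβ⟩ := hp.coprime_iff_not_dvd.mpr h00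
    have ht : (ℓ : ℤ) ∣ X 0 1 - X 0 0 * (β * X 0 1) :=
      ⟨α * X 0 1, by linear_combination (-(X 0 1)) * hαβ⟩
    have ht' : (ℓ : ℤ) ∣ X 1 1 - X 1 0 * (β * X 0 1) :=
      ⟨α * X 1 1 + β, by linear_combination (-(X 1 1)) * hαβ + β * hd⟩
    obtain ⟨j, γ, h1, h2, h3⟩ := exists_atkinUpper_factor hℓ.ne_zero X _ ht ht' hdet
    exact ⟨some j, γ, h1, h2 ▸ h10, h3⟩

lemma heckeRep_injective {ℓ : ℕ} (hℓ : ℓ.Prime) {i j : Option (Fin ℓ)}
    {γ : Matrix (Fin 2) (Fin 2) ℤ} (hγ : γ.det = 1)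
    (h : atkinRep (atkinDiag ℓ) i = γ * atkinRep (atkinDiag ℓ) j) : i = j := by
  have hnd : ¬ (ℓ : ℤ) ∣ 1 := by
    intro h1
    have h2 : ℓ ∣ 1 := by exact_mod_cast h1
    exact hℓ.one_lt.ne' (Nat.dvd_one.mp h2)
  rw [Matrix.det_fin_two] at hγ
  rcases i with _ | i <;> rcases j with _ | j
  · rfl
  · exfalso
    have h00 := congrFun (congrFun h 0) 0
    have h10 := congrFun (congrFun h 1) 0
    simp [atkinRep, atkinDiag, atkinUpper, Matrix.mul_apply, Fin.sum_univ_two] at h00 h10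
    rw [← h00, ← h10] at hγ
    exact hnd ⟨γ 1 1, by linear_combination -hγ⟩
  · exfalso
    have h00 := congrFun (congrFun h 0) 0
    simp [atkinRep, atkinDiag, atkinUpper, Matrix.mul_apply, Fin.sum_univ_two] at h00
    exact hnd ⟨γ 0 0, by linear_combination h00⟩
  · exact congrArg some (atkinUpper_injective h)

lemma det_heckeRep (ℓ : ℕ) (i : Option (Fin ℓ)) : (atkinRep (atkinDiag ℓ) i).det = ℓ := by
  rcases i with _ | i
  · exact det_atkinDiag ℓ
  · exact det_atkinUpper ℓ i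

lemma heckeRep_mem (N ℓ : ℕ) (i : Option (Fin ℓ)) :
    (N : ℤ) ∣ atkinRep (atkinDiag ℓ) i 1 0 := by
  rcases i with _ | i <;> simp [atkinRep, atkinDiag, atkinUpper]

namespace AtkinData

variable {q M : ℕ} (D : AtkinData q M)

/-- `W` commutes with `T_ℓ`, `ℓ ∤ qM`. -/
theorem heckeT_slash_W {k : ℤ} {f : ℍ → ℂ} (hf : AtkinInvariant (q * M) k f) {ℓ : ℕ}
    (hℓ : ℓ.Prime) (hℓN : ¬ ℓ ∣ q * M) :
    ModularForm.heckeT k ℓ (f ∣[k] atkinGL D.W) =
      (ModularForm.heckeT k ℓ f) ∣[k] atkinGL D.W := by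
  have hl : (ℓ : ℤ) ≠ 0 := by exact_mod_cast hℓ.ne_zero
  rw [heckeT_eq_sum_atkinGL k hℓ.ne_zero, heckeT_eq_sum_atkinGL k hℓ.ne_zero,
    SlashAction.sum_slash]
  have e1 : ∀ i : Option (Fin ℓ),
      (f ∣[k] atkinGL D.W) ∣[k] atkinGL (atkinRep (atkinDiag ℓ) i) =
        f ∣[k] atkinGL (D.W * atkinRep (atkinDiag ℓ) i) := fun i => by
    rw [atkinGL_mul D.det_W_ne (by rw [det_heckeRep]; exact hl), SlashAction.slash_mul]
  have e2 : ∀ i : Option (Fin ℓ),
      (f ∣[k] atkinGL (atkinRep (atkinDiag ℓ) i)) ∣[k] atkinGL D.W =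
        f ∣[k] atkinGL (atkinRep (atkinDiag ℓ) i * D.W) := fun i => by
    rw [atkinGL_mul (by rw [det_heckeRep]; exact hl) D.det_W_ne, SlashAction.slash_mul]
  simp only [e1, e2]
  refine hf.sum_slash_eq _ _
    (fun i => by rw [Matrix.det_mul]; exact mul_ne_zero (by rw [det_heckeRep]; exact hl) D.det_W_ne)
    (fun i => ?_) ?_
  · obtain ⟨Y, hY1, hY2, hY3⟩ := D.exists_W_mul _ (heckeRep_mem (q * M) ℓ i)
    obtain ⟨j, γ, h1, h2, h3⟩ :=
      exists_heckeRep_factor hℓ hℓN Y hY1 (hY2.trans (det_heckeRep ℓ i))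
    exact ⟨j, γ, h1, h2, by rw [hY3, h3, Matrix.mul_assoc]⟩
  · intro i j γ hγ1 hγ2 h
    obtain ⟨Y, hY1, hY2, hY3⟩ := D.exists_W_mul γ hγ2
    have h2 : D.γ₀ * atkinRep (atkinDiag ℓ) i = Y * (D.γ₀ * atkinRep (atkinDiag ℓ) j) := by
      apply smul_right_injective (Matrix (Fin 2) (Fin 2) ℤ) D.qne
      simp only
      rw [← Matrix.smul_mul, ← D.W_mul_W, Matrix.mul_assoc, h, ← Matrix.mul_assoc, hY3,
        Matrix.mul_assoc, ← Matrix.mul_assoc D.W D.W, D.W_mul_W, Matrix.smul_mul, Matrix.mul_smul]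
    refine heckeRep_injective hℓ (γ := D.γ₀.adjugate * Y * D.γ₀) ?_ ?_
    · rw [Matrix.det_mul, Matrix.det_mul, Matrix.det_adjugate, D.det_γ₀, hY2, hγ1]
      simp
    · rw [Matrix.mul_assoc, Matrix.mul_assoc, ← h2, ← Matrix.mul_assoc, Matrix.adjugate_mul,
        D.det_γ₀, one_smul, Matrix.one_mul]

/-- In weight two `W` is an involution. -/
theorem slash_W_W {f : ℍ → ℂ} (hf : AtkinInvariant (q * M) 2 f) :
    (f ∣[(2 : ℤ)] atkinGL D.W) ∣[(2 : ℤ)] atkinGL D.W = f := by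
  set Z : Matrix (Fin 2) (Fin 2) ℤ := !![(q : ℤ), 0; 0, (q : ℤ)] with hZ
  have hs : Z.det ≠ 0 := by
    rw [hZ, Matrix.det_fin_two_of, mul_zero, sub_zero]
    exact mul_ne_zero D.qne D.qne
  have hqZ : (q : ℤ) • D.γ₀ = D.γ₀ * Z := by
    ext i j
    fin_cases i <;> fin_cases j <;> simp [hZ, Matrix.mul_apply, Fin.sum_univ_two, mul_comm]
  rw [← SlashAction.slash_mul, ← atkinGL_mul D.det_W_ne D.det_W_ne, D.W_mul_W, hqZ,
    hf.slash_atkinGL_mul D.det_γ₀ D.γ₀_mem hs]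
  have hdet : (((atkinGL Z).det : ℝˣ) : ℝ) = (q : ℝ) ^ 2 := by
    rw [Matrix.GeneralLinearGroup.val_det_apply, val_atkinGL hs]
    simp [hZ, Matrix.det_fin_two]
    ring
  have hpos : 0 < (((atkinGL Z).det : ℝˣ) : ℝ) := by
    rw [hdet]
    exact pow_pos (by exact_mod_cast D.prime.pos) 2
  have hq : (q : ℂ) ≠ 0 := by exact_mod_cast D.prime.ne_zero
  funext τ
  have hsm : atkinGL Z • τ = τ := by
    apply UpperHalfPlane.ext
    rw [UpperHalfPlane.coe_smul_of_det_pos hpos]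
    simp only [UpperHalfPlane.num, UpperHalfPlane.denom, val_atkinGL hs]
    simp [hZ, hq]
  have hσ : UpperHalfPlane.σ (atkinGL Z) = .refl ℝ ℂ := by
    rw [UpperHalfPlane.σ, if_pos hpos]
  rw [ModularForm.slash_apply, hσ, hsm, hdet, abs_of_nonneg (sq_nonneg _)]
  simp only [UpperHalfPlane.denom, val_atkinGL hs]
  simp [hZ]
  field_simp

end AtkinData

end Fermat.Agent.Newform
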