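import Mathlib.LinearAlgebra.Eigenspace.Triangularizable
import Fermat.Prelude.Thm_ModularForm_sturm_bound_Gamma0
import Fermat.Prelude.Def_FLTPrelim_Modularity
import Fermat.Agent.Newform.Degeneracy

/-!
# Common eigenvectors give normalised eigenforms

If a nonzero cusp form of level `M` is an eigenvector of the `T_ℓ`, `ℓ ∤ N`, then some normalised
eigenform of level `M` has the same eigenvalues.
-/

set_option autoImplicit false

noncomputable section

namespace Fermat.Agent.Newform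

open ModularForm ModularFormClass UpperHalfPlane

variable {M N : ℕ}

lemma atkin_qCoeff_smul {k : ℤ} [NeZero M] (c : ℂ) (f : CuspForm (CongruenceSubgroup.Gamma0 M) k)
    (n : ℕ) : qCoeff ⇑(c • f) n = c * qCoeff ⇑f n := by
  have h : ⇑(c • f) = c • ⇑f := FunLike.coe_smul c f
  rw [qCoeff, qCoeff, h, qExpansion_smul
    (ModularFormClass.analyticAt_cuspFunction_zero f one_pos
      (CongruenceSubgroup.one_mem_strictPeriods_Gamma0 M)) c]
  simp

lemma atkin_qCoeff_add {k : ℤ} [NeZero M] (f g : CuspForm (CongruenceSubgroup.Gamma0 M) k)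
    (n : ℕ) : qCoeff ⇑(f + g) n = qCoeff ⇑f n + qCoeff ⇑g n := by
  have h : ⇑(f + g) = ⇑f + ⇑g := FunLike.coe_add f g
  rw [qCoeff, qCoeff, qCoeff, h, qExpansion_add
    (ModularFormClass.analyticAt_cuspFunction_zero f one_pos
      (CongruenceSubgroup.one_mem_strictPeriods_Gamma0 M))
    (ModularFormClass.analyticAt_cuspFunction_zero g one_pos
      (CongruenceSubgroup.one_mem_strictPeriods_Gamma0 M))]
  simp

lemma atkin_qCoeff_zero_form {k : ℤ} [NeZero M] (n : ℕ) :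
    qCoeff ⇑(0 : CuspForm (CongruenceSubgroup.Gamma0 M) k) n = 0 := by
  simpa using atkin_qCoeff_smul (0 : ℂ) (0 : CuspForm (CongruenceSubgroup.Gamma0 M) k) n

lemma atkin_finiteDimensional [NeZero M] (k : ℤ) :
    FiniteDimensional ℂ (CuspForm (CongruenceSubgroup.Gamma0 M) k) := by
  set B := (k * (CongruenceSubgroup.Gamma0 M).index).toNat / 12
  let L : CuspForm (CongruenceSubgroup.Gamma0 M) k →ₗ[ℂ] (Fin (B + 1) → ℂ) :=
    { toFun := fun f n => qCoeff ⇑f n
      map_add' := fun f g => funext fun n => atkin_qCoeff_add f g n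
      map_smul' := fun c f => funext fun n => atkin_qCoeff_smul c f n }
  refine FiniteDimensional.of_injective L ((injective_iff_map_eq_zero L).mpr fun f hf => ?_)
  have h0 : (f : ModularForm (CongruenceSubgroup.Gamma0 M) k) = 0 := by
    apply ModularForm.sturm_bound_Gamma0 M
    intro n hn
    exact congrFun hf ⟨n, by omega⟩
  ext z
  exact DFunLike.congr_fun h0 z

/-- A commuting family with an invariant nonzero subspace has a common eigenvector inside it. -/
lemma atkin_exists_common_eigenvector {V : Type*} [AddCommGroup V] [Module ℂ V]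
    [FiniteDimensional ℂ V] (S : Set (Module.End ℂ V))
    (hS : ∀ a ∈ S, ∀ b ∈ S, Commute a b) (U : Submodule ℂ V)
    (hU : ∀ a ∈ S, ∀ v ∈ U, a v ∈ U) (hne : U ≠ ⊥) :
    ∃ v ∈ U, v ≠ 0 ∧ ∀ a ∈ S, ∃ c : ℂ, a v = c • v := by
  classical
  have hex : ∃ d, ∃ W : Submodule ℂ V, Module.finrank ℂ W = d ∧ W ≤ U ∧ W ≠ ⊥ ∧
      ∀ a ∈ S, ∀ v ∈ W, a v ∈ W := ⟨_, U, rfl, le_rfl, hne, hU⟩
  obtain ⟨W, hWd, hWU, hWne, hW⟩ := Nat.find_spec hex
  obtain ⟨v, hv, hv0⟩ := W.ne_bot_iff.mp hWne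
  refine ⟨v, hWU hv, hv0, fun a ha => ?_⟩
  haveI : Nontrivial W := ⟨⟨⟨v, hv⟩, 0, fun h => hv0 (congrArg Subtype.val h)⟩⟩
  obtain ⟨c, hc⟩ := Module.End.exists_eigenvalue (a.restrict (hW a ha))
  obtain ⟨w, hw⟩ := hc.exists_hasEigenvector
  have hw' : a (w : V) = c • (w : V) := congrArg Subtype.val hw.apply_eq_smul
  let W' : Submodule ℂ V := W ⊓ LinearMap.ker (a - c • LinearMap.id)
  have hwW' : (w : V) ∈ W' := ⟨w.2, by simp [hw']⟩
  have hW'ne : W' ≠ ⊥ := fun h => hw.2 (Subtype.ext ((Submodule.mem_bot ℂ).mp (h ▸ hwW')))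
  have hW'stab : ∀ b ∈ S, ∀ x ∈ W', b x ∈ W' := by
    intro b hb x hx
    refine ⟨hW b hb x hx.1, ?_⟩
    have h2 : a x = c • x := by simpa [sub_eq_zero] using hx.2
    have h3 : a (b x) = b (a x) := congrArg (fun T : Module.End ℂ V => T x) (hS a ha b hb).eq
    simp [sub_eq_zero, h3, h2]
  have heq : W' = W := Submodule.eq_of_le_of_finrank_le inf_le_left (by
    rw [hWd]
    exact Nat.find_min' hex ⟨W', rfl, inf_le_left.trans hWU, hW'ne, hW'stab⟩)
  have hvW' : v ∈ W' := heq ▸ hv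
  exact ⟨c, by simpa [sub_eq_zero] using hvW'.2⟩

/-- The `n`-th coefficient relation for an eigenvector of `T_p`. -/
lemma atkin_rel_T [NeZero M] {f : CuspForm (CongruenceSubgroup.Gamma0 M) 2} {p : ℕ}
    (hp : p.Prime) (hpM : ¬ p ∣ M) {c : ℂ} (h : CuspForm.heckeTLin 2 hp hpM f = c • f) (n : ℕ) :
    qCoeff f (n * p) + (if p ∣ n then (p : ℂ) * qCoeff f (n / p) else 0) = c * qCoeff f n := by
  have e : qCoeff ⇑(CuspForm.heckeTLin 2 hp hpM f) n = qCoeff ⇑(c • f) n := by rw [h]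
  rw [atkin_qCoeff_smul, CuspForm.coe_heckeTLin_apply, qCoeff_heckeT f
    (CongruenceSubgroup.one_mem_strictPeriods_Gamma0 M) hp.ne_zero, coeffHeckeT] at e
  simpa using e

lemma atkin_rel_U [NeZero M] {f : CuspForm (CongruenceSubgroup.Gamma0 M) 2} {p : ℕ}
    (hp : p.Prime) (hpM : p ∣ M) {c : ℂ} (h : CuspForm.heckeULin 2 hpM f = c • f) (n : ℕ) :
    qCoeff f (n * p) = c * qCoeff f n := by
  have e : qCoeff ⇑(CuspForm.heckeULin 2 hpM f) n = qCoeff ⇑(c • f) n := by rw [h]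
  rw [atkin_qCoeff_smul, CuspForm.coe_heckeULin_apply, qCoeff_heckeU f
    (CongruenceSubgroup.one_mem_strictPeriods_Gamma0 M) hp.ne_zero, coeffHeckeU_apply] at e
  exact e

/-- An eigenvector of all `T_p`, `U_p` with `a₁ = 1` is a normalised eigenform with those
eigenvalues. -/
theorem atkin_isNormalizedEigenform [NeZero M] {f : CuspForm (CongruenceSubgroup.Gamma0 M) 2}
    (h1 : qCoeff f 1 = 1) (lam : ℕ → ℂ)
    (hT : ∀ p (hp : p.Prime) (hpM : ¬ p ∣ M), CuspForm.heckeTLin 2 hp hpM f = lam p • f)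
    (hU : ∀ p, p.Prime → ∀ hpM : p ∣ M, CuspForm.heckeULin 2 hpM f = lam p • f) :
    f.IsNormalizedEigenform ∧ ∀ p, p.Prime → qCoeff f p = lam p := by
  have hlam : ∀ p, p.Prime → qCoeff f p = lam p := by
    intro p hp
    by_cases hpM : p ∣ M
    · simpa [h1] using atkin_rel_U hp hpM (hU p hp hpM) 1
    · simpa [h1, Nat.dvd_one, hp.one_lt.ne'] using atkin_rel_T hp hpM (hT p hp hpM) 1
  have hprime : ∀ p r : ℕ, p.Prime →
      qCoeff f (p ^ (r + 2)) = qCoeff f p * qCoeff f (p ^ (r + 1)) -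
        (if p ∣ M then 0 else (p : ℂ) * qCoeff f (p ^ r)) := by
    intro p r hp
    rw [hlam p hp]
    by_cases hpM : p ∣ M
    · rw [if_pos hpM, sub_zero, ← atkin_rel_U hp hpM (hU p hp hpM), pow_succ p (r + 1)]
    · rw [if_neg hpM, ← atkin_rel_T hp hpM (hT p hp hpM), if_pos (dvd_pow_self p r.succ_ne_zero),
        pow_succ p r, Nat.mul_div_cancel _ hp.pos, ← pow_succ, ← pow_succ]
      ring
  refine ⟨⟨h1, ?_, fun p r hp hpM => by simpa [hpM] using hprime p r hp,
    fun p r hp hpM => by simpa [hpM] using hprime p r hp⟩, hlam⟩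
  intro m
  induction m using Nat.strong_induction_on with
  | _ m ih =>
    intro n hmn
    rcases eq_or_ne m 1 with rfl | hm1
    · simp [h1]
    rcases Nat.eq_zero_or_pos m with rfl | hm0
    · rw [Nat.coprime_zero_left] at hmn
      subst hmn
      simp [h1]
    obtain ⟨p, hp, m', rfl⟩ := Nat.exists_prime_and_dvd hm1
    have hm'0 : 0 < m' := pos_of_mul_pos_right hm0 (Nat.zero_le p)
    have hlt : m' < p * m' := by nlinarith [hp.two_le]
    have hpn : ¬ p ∣ n := (hp.coprime_iff_not_dvd).mp (Nat.Coprime.coprime_mul_right hmn)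
    have hm'n : m'.Coprime n := Nat.Coprime.coprime_mul_left hmn
    by_cases hpM : p ∣ M
    · have e1 := atkin_rel_U hp hpM (hU p hp hpM) (m' * n)
      have e2 := atkin_rel_U hp hpM (hU p hp hpM) m'
      rw [show p * m' * n = m' * n * p by ring, e1, show p * m' = m' * p by ring, e2,
        ih m' hlt n hm'n, mul_assoc]
    · have e1 := atkin_rel_T hp hpM (hT p hp hpM) (m' * n)
      have e2 := atkin_rel_T hp hpM (hT p hp hpM) m'
      rw [show p * m' * n = m' * n * p by ring, show p * m' = m' * p by ring]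
      by_cases hpm' : p ∣ m'
      · obtain ⟨m'', rfl⟩ := hpm'
        rw [if_pos (dvd_mul_of_dvd_left (dvd_mul_right p m'') n), mul_assoc p m'' n,
          Nat.mul_div_cancel_left _ hp.pos, ← mul_assoc p m'' n, ih _ hlt n hm'n] at e1
        rw [if_pos (dvd_mul_right p m''), Nat.mul_div_cancel_left _ hp.pos] at e2
        have h3 := ih m'' (by nlinarith [hp.two_le]) n (Nat.Coprime.coprime_mul_left hm'n)
        linear_combination e1 - qCoeff f n * e2 - (p : ℂ) * h3
      · rw [if_neg (fun h => (hp.dvd_mul.mp h).elim hpm' hpn), add_zero, ih _ hlt n hm'n] at e1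
        rw [if_neg hpm', add_zero] at e2
        linear_combination e1 - qCoeff f n * e2

/-- An eigenvector with `a₁ = 0` vanishes. -/
lemma atkin_eq_zero_of_qCoeff_one [NeZero M] {f : CuspForm (CongruenceSubgroup.Gamma0 M) 2}
    (h1 : qCoeff f 1 = 0) (lam : ℕ → ℂ)
    (hT : ∀ p (hp : p.Prime) (hpM : ¬ p ∣ M), CuspForm.heckeTLin 2 hp hpM f = lam p • f)
    (hU : ∀ p, p.Prime → ∀ hpM : p ∣ M, CuspForm.heckeULin 2 hpM f = lam p • f) : f = 0 := by
  apply cuspForm_ext_qCoeff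
  intro n
  rw [atkin_qCoeff_zero_form]
  induction n using Nat.strong_induction_on with
  | _ n ih =>
    rcases eq_or_ne n 1 with rfl | hn1
    · exact h1
    rcases Nat.eq_zero_or_pos n with rfl | hn0
    · exact CuspFormClass.qExpansion_coeff_zero f one_pos
        (CongruenceSubgroup.one_mem_strictPeriods_Gamma0 M)
    obtain ⟨p, hp, n', rfl⟩ := Nat.exists_prime_and_dvd hn1
    have hn'0 : 0 < n' := pos_of_mul_pos_right hn0 (Nat.zero_le p)
    have hlt : n' < p * n' := by nlinarith [hp.two_le]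
    by_cases hpM : p ∣ M
    · rw [mul_comm p n', atkin_rel_U hp hpM (hU p hp hpM), ih n' hlt, mul_zero]
    · have e := atkin_rel_T hp hpM (hT p hp hpM) n'
      rw [ih n' hlt, mul_zero] at e
      rw [mul_comm p n']
      split_ifs at e with hd
      · rw [ih (n' / p) ((Nat.div_le_self _ _).trans_lt hlt), mul_zero, add_zero] at e
        exact e
      · rwa [add_zero] at e

/-- A nonzero eigenvector of the `T_ℓ`, `ℓ ∤ N`, of level `M` gives a normalised eigenform of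
level `M` with the same eigenvalues. -/
theorem exists_eigenform_of_eigenvector [NeZero M]
    {g : CuspForm (CongruenceSubgroup.Gamma0 M) 2} (hg : g ≠ 0) (a : ℕ → ℂ) (hMN : M ∣ N)
    (hT : ∀ ℓ (hℓ : ℓ.Prime) (hℓN : ¬ ℓ ∣ N),
      CuspForm.heckeTLin 2 hℓ (fun h => hℓN (h.trans hMN)) g = a ℓ • g) :
    ∃ f : CuspForm (CongruenceSubgroup.Gamma0 M) 2, f.IsNormalizedEigenform ∧
      ∀ ℓ : ℕ, ℓ.Prime → ¬ ℓ ∣ N → qCoeff f ℓ = a ℓ := by
  classical
  have := atkin_finiteDimensional (M := M) 2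
  set S := CuspForm.heckeGenerators M 2 ∅
  have hS : ∀ x ∈ S, ∀ y ∈ S, Commute x y := fun x hx y hy =>
    CuspForm.commute_of_mem_heckeGenerators hx hy
  let U : Submodule ℂ (CuspForm (CongruenceSubgroup.Gamma0 M) 2) :=
    ⨅ (ℓ : ℕ) (hℓ : ℓ.Prime) (hℓN : ¬ ℓ ∣ N),
      LinearMap.ker (CuspForm.heckeTLin 2 hℓ (fun h => hℓN (h.trans hMN)) - a ℓ • LinearMap.id)
  have hUmem : ∀ v, v ∈ U ↔ ∀ ℓ (hℓ : ℓ.Prime) (hℓN : ¬ ℓ ∣ N),
      CuspForm.heckeTLin 2 hℓ (fun h => hℓN (h.trans hMN)) v = a ℓ • v := fun v => by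
    simp [U, Submodule.mem_iInf, sub_eq_zero]
  have hU : ∀ x ∈ S, ∀ v ∈ U, x v ∈ U := by
    intro x hx v hv
    rw [hUmem] at hv ⊢
    intro ℓ hℓ hℓN
    have hc := hS _ (CuspForm.heckeTLin_mem_heckeGenerators hℓ
      (fun h => hℓN (h.trans hMN)) (Set.notMem_empty ℓ)) x hx
    have h3 := congrArg (fun T : Module.End ℂ _ => T v) hc.eq
    simp only [Module.End.mul_apply] at h3
    rw [h3, hv ℓ hℓ hℓN, map_smul]
  obtain ⟨v, hvU, hv0, hv⟩ := atkin_exists_common_eigenvector S hS U hU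
    (fun h => hg ((Submodule.mem_bot ℂ).mp (h ▸ (hUmem g).mpr hT)))
  have hc : ∀ p, ∃ c : ℂ,
      (∀ (hp : p.Prime) (hpM : ¬ p ∣ M), CuspForm.heckeTLin 2 hp hpM v = c • v) ∧
      (p.Prime → ∀ hpM : p ∣ M, CuspForm.heckeULin 2 hpM v = c • v) := by
    intro p
    by_cases hp : p.Prime
    · by_cases hpM : p ∣ M
      · obtain ⟨c, hc⟩ := hv _ (CuspForm.heckeULin_mem_heckeGenerators hp hpM (Set.notMem_empty p))
        exact ⟨c, fun _ h => absurd hpM h, fun _ _ => hc⟩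
      · obtain ⟨c, hc⟩ := hv _ (CuspForm.heckeTLin_mem_heckeGenerators hp hpM (Set.notMem_empty p))
        exact ⟨c, fun _ _ => hc, fun _ h => absurd h hpM⟩
    · exact ⟨0, fun h => absurd h hp, fun h => absurd h hp⟩
  choose lam hlamT hlamU using hc
  have h1 : qCoeff v 1 ≠ 0 := fun h1 => hv0 (atkin_eq_zero_of_qCoeff_one h1 lam hlamT hlamU)
  obtain ⟨hf, hfp⟩ := atkin_isNormalizedEigenform (f := (qCoeff v 1)⁻¹ • v)
    (by rw [atkin_qCoeff_smul, inv_mul_cancel₀ h1]) lam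
    (fun p hp hpM => by rw [map_smul, hlamT p hp hpM, smul_comm])
    (fun p hp hpM => by rw [map_smul, hlamU p hp hpM, smul_comm])
  refine ⟨_, hf, fun ℓ hℓ hℓN => ?_⟩
  rw [hfp ℓ hℓ]
  have h := (hUmem v).mp hvU ℓ hℓ hℓN
  rw [hlamT ℓ hℓ] at h
  exact smul_left_injective ℂ hv0 h

/-- A normalised eigenform is an eigenvector of `T_p`, `p ∤ M`. -/
theorem atkin_heckeT_eigen [NeZero M] {f : CuspForm (CongruenceSubgroup.Gamma0 M) 2}
    (hf : f.IsNormalizedEigenform) {p : ℕ} (hp : p.Prime) (hpM : ¬ p ∣ M) :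
    CuspForm.heckeTLin 2 hp hpM f = qCoeff f p • f := by
  apply cuspForm_ext_qCoeff
  intro n
  rw [atkin_qCoeff_smul, CuspForm.coe_heckeTLin_apply, qCoeff_heckeT f
    (CongruenceSubgroup.one_mem_strictPeriods_Gamma0 M) hp.ne_zero, coeffHeckeT]
  norm_num
  rcases Nat.eq_zero_or_pos n with rfl | hn
  · have h0 : qCoeff f 0 = 0 := CuspFormClass.qExpansion_coeff_zero f one_pos
      (CongruenceSubgroup.one_mem_strictPeriods_Gamma0 M)
    simp [h0]
  obtain ⟨r, m, hpm, rfl⟩ := Nat.exists_eq_pow_mul_and_not_dvd hn.ne' p hp.one_lt.ne'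
  have hcop : ∀ s, (p ^ s).Coprime m := fun s => (hp.coprime_iff_not_dvd.mpr hpm).pow_left s
  rw [show p ^ r * m * p = p ^ (r + 1) * m by ring, hf.qCoeff_mul_of_coprime _ _ (hcop _),
    hf.qCoeff_mul_of_coprime _ _ (hcop r)]
  rcases r with _ | r
  · simp [hpm, hf.qCoeff_one]
  · rw [if_pos (dvd_mul_of_dvd_left (dvd_pow_self p r.succ_ne_zero) m),
      show p ^ (r + 1) * m / p = p ^ r * m by
        rw [show p ^ (r + 1) * m = p * (p ^ r * m) by ring, Nat.mul_div_cancel_left _ hp.pos],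
      hf.qCoeff_mul_of_coprime _ _ (hcop r), hf.qCoeff_prime_pow_of_not_dvd p r hp hpM]
    ring

/-- A normalised eigenform is an eigenvector of `U_p`, `p ∣ M`. -/
theorem atkin_heckeU_eigen [NeZero M] {f : CuspForm (CongruenceSubgroup.Gamma0 M) 2}
    (hf : f.IsNormalizedEigenform) {p : ℕ} (hp : p.Prime) (hpM : p ∣ M) :
    CuspForm.heckeULin 2 hpM f = qCoeff f p • f := by
  apply cuspForm_ext_qCoeff
  intro n
  rw [atkin_qCoeff_smul, CuspForm.coe_heckeULin_apply, qCoeff_heckeU f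
    (CongruenceSubgroup.one_mem_strictPeriods_Gamma0 M) hp.ne_zero, coeffHeckeU_apply]
  rcases Nat.eq_zero_or_pos n with rfl | hn
  · have h0 : qCoeff f 0 = 0 := CuspFormClass.qExpansion_coeff_zero f one_pos
      (CongruenceSubgroup.one_mem_strictPeriods_Gamma0 M)
    simp [h0]
  obtain ⟨r, m, hpm, rfl⟩ := Nat.exists_eq_pow_mul_and_not_dvd hn.ne' p hp.one_lt.ne'
  have hcop : ∀ s, (p ^ s).Coprime m := fun s => (hp.coprime_iff_not_dvd.mpr hpm).pow_left s
  rw [show p ^ r * m * p = p ^ (r + 1) * m by ring, hf.qCoeff_mul_of_coprime _ _ (hcop _),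
    hf.qCoeff_mul_of_coprime _ _ (hcop r)]
  rcases r with _ | r
  · simp [hf.qCoeff_one]
  · rw [hf.qCoeff_prime_pow_of_dvd p r hp hpM]
    ring

end Fermat.Agent.Newform

end
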