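import Fermat.Agent.Newform.Descent
import Fermat.Agent.Newform.AtkinEigen

/-!
# Extension of eigenforms to higher level

A normalised eigenform of level `M ∣ N` has the same good eigenvalues (primes not dividing `N`)
as some normalised eigenform of level `N`; consequently modularity and residual modularity
propagate to multiples of the level.
-/

set_option autoImplicit false

namespace Fermat.Agent.Newform

open CuspForm ModularFormClass

variable {N M : ℕ}

/-- Eigenform extension: an eigenform of level `M ∣ N` extends to an eigenform of level `N`. -/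
theorem exists_eigenform_of_dvd [NeZero N] (hMN : M ∣ N)
    {g : CuspForm (CongruenceSubgroup.Gamma0 M) 2} (hg : g.IsNormalizedEigenform) :
    ∃ f : CuspForm (CongruenceSubgroup.Gamma0 N) 2, f.IsNormalizedEigenform ∧
      ∀ ℓ : ℕ, ℓ.Prime → ¬ ℓ ∣ N → qCoeff f ℓ = qCoeff g ℓ := by
  have : NeZero M := ⟨fun h => NeZero.ne N (by subst h; simpa using hMN)⟩
  refine exists_eigenform_of_eigenvector (g := levelInclusion 2 hMN g) ?_ (qCoeff g) dvd_rfl ?_
  · intro h
    have h1 := congrArg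
      (fun x : CuspForm (CongruenceSubgroup.Gamma0 N) 2 => qCoeff ⇑x 1) h
    simp only [qCoeff_levelInclusion, hg.qCoeff_one, atkin_qCoeff_zero_form] at h1
    exact one_ne_zero h1
  · intro ℓ hℓ hℓN
    rw [levelInclusion, heckeTLin_degeneracy 2 _ hℓ hℓN, atkin_heckeT_eigen hg, map_smul]

theorem goodOccurs_of_dvd [NeZero N] {L : ℕ} (hNL : M ∣ N)
    {f : CuspForm (CongruenceSubgroup.Gamma0 L) 2} (hNL' : N ∣ L)
    (h : GoodEigensystemOccursAt f M) : GoodEigensystemOccursAt f N := by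
  obtain ⟨g, hg, hgf⟩ := h
  obtain ⟨F, hF, hFg⟩ := exists_eigenform_of_dvd hNL hg
  exact ⟨F, hF, fun ℓ hℓ hℓL =>
    (hFg ℓ hℓ fun hℓN => hℓL (hℓN.trans hNL')).trans (hgf ℓ hℓ hℓL)⟩

/-- A form which is new at `q` in the prelude sense has no companion at any level dividing
`N / q`. -/
theorem not_goodOccurs_of_isNewformAt [NeZero N] {f : CuspForm (CongruenceSubgroup.Gamma0 N) 2}
    {q : ℕ} (hf : f.IsNewformAt q) (hM : M ∣ N / q) : ¬ GoodEigensystemOccursAt f M := by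
  obtain ⟨-, hqN, hno⟩ := hf
  have hq0 : q ≠ 0 := fun h => NeZero.ne N (by subst h; simpa using hqN)
  have : NeZero (N / q) := ⟨(Nat.div_pos (Nat.le_of_dvd (NeZero.pos N) hqN)
    (Nat.pos_of_ne_zero hq0)).ne'⟩
  exact fun h => hno (goodOccurs_of_dvd hM (Nat.div_dvd_of_dvd hqN) h)

/-- An eigenform of level `N` is a newform iff it is new at every prime dividing `N`. -/
theorem isNewform_iff_forall_isNewformAt [NeZero N]
    {f : CuspForm (CongruenceSubgroup.Gamma0 N) 2} (hf : f.IsNormalizedEigenform) :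
    f.IsNewform ↔ ∀ q : ℕ, q.Prime → q ∣ N → f.IsNewformAt q := by
  refine ⟨fun h q hq hqN => h.isNewformAt hq hqN (NeZero.ne N),
    fun h => ⟨hf, fun M hM hne => ?_⟩⟩
  obtain ⟨c, hc⟩ := hM
  have hc1 : c ≠ 1 := fun h1 => hne (by rw [hc, h1, mul_one])
  obtain ⟨q, hq, hqc⟩ := Nat.exists_prime_and_dvd hc1
  obtain ⟨c', rfl⟩ := hqc
  have hqN : q ∣ N := ⟨M * c', by rw [hc]; ring⟩
  refine not_goodOccurs_of_isNewformAt (h q hq hqN) ?_
  exact ⟨c', Nat.div_eq_of_eq_mul_left hq.pos (by rw [hc]; ring)⟩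

/-- Modularity propagates to multiples of the level. -/
theorem isModularModelOfLevel_of_dvd [NeZero N] (hMN : M ∣ N) {W : WeierstrassCurve ℤ}
    (h : W.IsModularModelOfLevel M) : W.IsModularModelOfLevel N := by
  obtain ⟨g, hg, hgW⟩ := h
  obtain ⟨f, hf, hfg⟩ := exists_eigenform_of_dvd hMN hg
  exact ⟨f, hf, fun ℓ hℓ hgood hℓN =>
    (hfg ℓ hℓ hℓN).trans (hgW ℓ hℓ hgood fun hℓM => hℓN (hℓM.trans hMN))⟩

/-- Residual modularity propagates to multiples of the level. -/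
theorem isResiduallyModularOfLevel_of_dvd [NeZero N] (hMN : M ∣ N) {W : WeierstrassCurve ℤ}
    {p : ℕ} (h : W.IsResiduallyModularOfLevel p M) : W.IsResiduallyModularOfLevel p N := by
  obtain ⟨g, 𝔪, hg, hmax, hp, hcong⟩ := h
  obtain ⟨f, hf, hfg⟩ := exists_eigenform_of_dvd hMN hg
  refine ⟨f, 𝔪, hf, hmax, hp, fun ℓ hℓ hgood hℓN hℓp => ?_⟩
  obtain ⟨a, ha, hmem⟩ := hcong ℓ hℓ hgood (fun hℓM => hℓN (hℓM.trans hMN)) hℓp
  exact ⟨a, ha.trans (hfg ℓ hℓ hℓN).symm, hmem⟩

/-- Residual modularity of a Frey package propagates to multiples of the level. -/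
theorem modularRepOfLevel_of_dvd [NeZero N] (hMN : M ∣ N) {P : FreyPackage}
    (h : P.ModularRepOfLevel M) : P.ModularRepOfLevel N := by
  obtain ⟨g, W, 𝔪, hg, hW, hmax, hp, hcong⟩ := h
  obtain ⟨f, hf, hfg⟩ := exists_eigenform_of_dvd hMN hg
  refine ⟨f, W, 𝔪, hf, hW, hmax, hp, fun ℓ hℓ hgood hℓN hℓp => ?_⟩
  obtain ⟨a, ha, hmem⟩ := hcong ℓ hℓ hgood (fun hℓM => hℓN (hℓM.trans hMN)) hℓp
  exact ⟨a, ha.trans (hfg ℓ hℓ hℓN).symm, hmem⟩

end Fermat.Agent.Newform
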