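import Fermat.Agent.Newform.AtkinLehner

/-!
# Good eigenvalues are determined by all but finitely many of them

Sieving removes all indices divisible by a finite set of primes; a cusp form of level prime to `p`
whose coefficients are supported on multiples of `p` vanishes.
-/

set_option autoImplicit false

noncomputable section

namespace Fermat.Agent.Newform

open CuspForm ModularForm ModularFormClass UpperHalfPlane
open scoped ModularForm

variable {M M' L : ℕ}

lemma atkin_qCoeff_sub {k : ℤ} [NeZero M] (f g : CuspForm (CongruenceSubgroup.Gamma0 M) k)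
    (n : ℕ) : qCoeff ⇑(f - g) n = qCoeff ⇑f n - qCoeff ⇑g n := by
  rw [eq_sub_iff_add_eq, ← atkin_qCoeff_add, sub_add_cancel]

/-- Removing the coefficients at indices divisible by `r`. -/
lemma exists_sieve [NeZero L] (F : CuspForm (CongruenceSubgroup.Gamma0 L) 2) {r : ℕ}
    (hr : r ≠ 0) :
    ∃ G : CuspForm (CongruenceSubgroup.Gamma0 (L * r * r)) 2,
      ∀ n, qCoeff ⇑G n = if r ∣ n then 0 else qCoeff ⇑F n := by
  haveI : NeZero (L * r) := ⟨mul_ne_zero (NeZero.ne L) hr⟩
  haveI : NeZero (L * r * r) := ⟨mul_ne_zero (NeZero.ne (L * r)) hr⟩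
  let F1 := levelInclusion 2 (dvd_mul_right L r) F
  refine ⟨levelInclusion 2 ((dvd_mul_right L r).trans (dvd_mul_right (L * r) r)) F -
    degeneracy 2 (M := L * r) (d := r) dvd_rfl
      (CuspForm.heckeULin 2 (dvd_mul_left r L) F1), fun n => ?_⟩
  rw [atkin_qCoeff_sub, qCoeff_levelInclusion, qCoeff_degeneracy]
  split_ifs with h
  · rw [CuspForm.coe_heckeULin_apply, qCoeff_heckeU F1
      (CongruenceSubgroup.one_mem_strictPeriods_Gamma0 (L * r)) hr, coeffHeckeU_apply,
      qCoeff_levelInclusion, Nat.div_mul_cancel h, sub_self]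
  · rw [sub_zero]

/-- Removing the coefficients at indices divisible by some member of a finite set of primes; the
level only gains primes from the set. -/
lemma exists_sieve_finset [NeZero L] (F : CuspForm (CongruenceSubgroup.Gamma0 L) 2)
    (R : Finset ℕ) (hR : ∀ r ∈ R, r.Prime) :
    ∃ (L' : ℕ) (_ : NeZero L') (G : CuspForm (CongruenceSubgroup.Gamma0 L') 2),
      (∀ p : ℕ, p.Prime → p ∣ L' → p ∣ L ∨ p ∈ R) ∧
      ∀ n, qCoeff ⇑G n = if ∀ r ∈ R, ¬ r ∣ n then qCoeff ⇑F n else 0 := by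
  classical
  induction R using Finset.induction_on with
  | empty => exact ⟨L, inferInstance, F, fun p _ h => Or.inl h, fun n => by simp⟩
  | insert r R hr ih =>
    obtain ⟨L', hL', G, hG1, hG2⟩ := ih fun s hs => hR s (Finset.mem_insert_of_mem hs)
    have hrp := hR r (Finset.mem_insert_self r R)
    obtain ⟨G', hG'⟩ := exists_sieve G hrp.ne_zero
    refine ⟨L' * r * r, ⟨mul_ne_zero (mul_ne_zero (NeZero.ne L') hrp.ne_zero) hrp.ne_zero⟩, G',
      fun p hp h => ?_, fun n => ?_⟩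
    · rcases (hp.dvd_mul.mp h) with h | h
      · rcases (hp.dvd_mul.mp h) with h | h
        · exact (hG1 p hp h).imp_right Finset.mem_insert_of_mem
        · exact Or.inr (Finset.mem_insert.mpr (Or.inl ((Nat.prime_dvd_prime_iff_eq hp hrp).mp h)))
      · exact Or.inr (Finset.mem_insert.mpr (Or.inl ((Nat.prime_dvd_prime_iff_eq hp hrp).mp h)))
    · rw [hG' n, hG2 n]
      simp only [Finset.forall_mem_insert]
      by_cases h : r ∣ n <;> simp [h]

/-- A weight two cusp form of level prime to `p` with coefficients supported on multiples of `p`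
is zero. -/
theorem eq_zero_of_supported_dvd [NeZero L] {p : ℕ} (hp : p.Prime) (hpL : ¬ p ∣ L)
    {D : CuspForm (CongruenceSubgroup.Gamma0 L) 2}
    (hD : ∀ n, ¬ p ∣ n → qCoeff ⇑D n = 0) : D = 0 := by
  have hper := CongruenceSubgroup.one_mem_strictPeriods_Gamma0 L
  have hp0 : (p : ℂ) ≠ 0 := by exact_mod_cast hp.ne_zero
  have hinv := atkinInvariant_coe D
  -- invariance under translation by `1 / p`
  have hshift : ∀ τ : ℍ, D ((1 / p : ℝ) +ᵥ τ) = D τ := by
    intro τ
    have h1 := ModularForm.hasSum_qExpansion D one_pos hper ((1 / p : ℝ) +ᵥ τ)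
    have h2 := ModularForm.hasSum_qExpansion D one_pos hper τ
    refine h1.unique (h2.congr_fun fun n => ?_)
    by_cases hn : p ∣ n
    · obtain ⟨m, rfl⟩ := hn
      congr 1
      rw [pow_mul, pow_mul]
      congr 1
      rw [UpperHalfPlane.coe_vadd, Function.Periodic.qParam, Function.Periodic.qParam,
        ← Complex.exp_nat_mul, ← Complex.exp_nat_mul, Complex.exp_eq_exp_iff_exists_int]
      refine ⟨1, ?_⟩
      push_cast
      field_simp
      ring
    · have := hD n hn
      rw [qCoeff] at this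
      simp [this]
  -- as a slash action
  set X : Matrix (Fin 2) (Fin 2) ℤ := !![(p : ℤ), 1; 0, (p : ℤ)] with hX
  have hXdet : X.det = (p : ℤ) * p := by simp [hX, Matrix.det_fin_two_of]
  have hXpos : 0 < X.det := by rw [hXdet]; exact_mod_cast Nat.mul_pos hp.pos hp.pos
  have hDX : ⇑D ∣[(2 : ℤ)] atkinGL X = ⇑D := by
    funext τ
    have hσ : UpperHalfPlane.σ (atkinGL X) = .refl ℝ ℂ := by
      rw [UpperHalfPlane.σ, if_pos (atkinGL_det_pos hXpos)]
    have hval : ((atkinGL X).det : ℝ) = (p : ℝ) * p := by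
      rw [Matrix.GeneralLinearGroup.val_det_apply, val_atkinGL hXpos.ne', ← RingHom.mapMatrix_apply,
        ← RingHom.map_det, hXdet]
      simp
    have hsm : atkinGL X • τ = (1 / p : ℝ) +ᵥ τ := by
      apply UpperHalfPlane.ext
      rw [UpperHalfPlane.coe_smul_of_det_pos (atkinGL_det_pos hXpos), UpperHalfPlane.coe_vadd]
      simp only [UpperHalfPlane.num, UpperHalfPlane.denom, val_atkinGL hXpos.ne']
      simp [hX]
      field_simp
      ring
    rw [ModularForm.slash_apply, hσ, hsm, hshift, hval, abs_of_nonneg (by positivity)]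
    simp only [UpperHalfPlane.denom, val_atkinGL hXpos.ne']
    simp [hX]
    field_simp
  -- conjugation by `(1 0; L 1)` and factorisation through `Γ₀(L)`
  obtain ⟨a, b, hab⟩ : ∃ a b : ℤ, a * ((p : ℤ) + L) + b * ((L : ℤ) * L) = 1 := by
    have h1 : IsCoprime (p : ℤ) (L : ℤ) :=
      Nat.isCoprime_iff_coprime.mpr (hp.coprime_iff_not_dvd.mpr hpL)
    have h2 : IsCoprime ((p : ℤ) + L) (L : ℤ) := by
      simpa using h1.add_mul_left_left 1
    exact h2.mul_right h2
  set A : Matrix (Fin 2) (Fin 2) ℤ := !![1, 0; (L : ℤ), 1] with hA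
  set δ : Matrix (Fin 2) (Fin 2) ℤ := !![a, b; -((L : ℤ) * L), (p : ℤ) + L] with hδ
  set Y : Matrix (Fin 2) (Fin 2) ℤ := !![(p : ℤ) * p, a - b * ((p : ℤ) - L); 0, 1] with hY
  have hδdet : δ.det = 1 := by rw [hδ, Matrix.det_fin_two_of]; linear_combination hab
  have hAdet : A.det = 1 := by simp [hA, Matrix.det_fin_two_of]
  have hYdet : Y.det = (p : ℤ) * p := by simp [hY, Matrix.det_fin_two_of]
  have hfac : A * X = Y * δ * A := by
    rw [hA, hX, hY, hδ]
    ext i j
    fin_cases i <;> fin_cases j <;> simp [Matrix.mul_apply, Fin.sum_univ_two]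
    · linear_combination (-(p : ℤ)) * hab
    · linear_combination -hab
    · ring
    · ring
  have hDY : ⇑D ∣[(2 : ℤ)] atkinGL Y = ⇑D := by
    have hAinv : ⇑D ∣[(2 : ℤ)] atkinGL A = ⇑D := hinv.slash_atkinGL hAdet (by simp [hA])
    have hδinv : ⇑D ∣[(2 : ℤ)] atkinGL δ = ⇑D := hinv.slash_atkinGL hδdet (by simp [hδ])
    have hYne : Y.det ≠ 0 := by rw [hYdet, ← hXdet]; exact hXpos.ne'
    have h := congrArg (fun Z => ⇑D ∣[(2 : ℤ)] atkinGL Z) hfac
    rw [atkinGL_mul (by rw [hAdet]; exact one_ne_zero) hXpos.ne', SlashAction.slash_mul, hAinv, hDX,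
      atkinGL_mul (by rw [Matrix.det_mul, hδdet, mul_one]; exact hYne) (by rw [hAdet]; exact one_ne_zero),
      atkinGL_mul hYne (by rw [hδdet]; exact one_ne_zero), SlashAction.slash_mul,
      SlashAction.slash_mul] at h
    have hcancel : ∀ (γ : GL (Fin 2) ℝ) (F : ℍ → ℂ), ⇑D ∣[(2 : ℤ)] γ = ⇑D →
        ⇑D = F ∣[(2 : ℤ)] γ → F = ⇑D := by
      intro γ F hγ hF
      have := congrArg (fun G : ℍ → ℂ => G ∣[(2 : ℤ)] γ⁻¹) (hγ.trans hF)
      simpa [← SlashAction.slash_mul] using this.symm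
    exact hcancel _ _ hδinv (hcancel _ _ hAinv h).symm
  -- coefficient descent
  haveI : NeZero (L * (p * p)) := ⟨mul_ne_zero (NeZero.ne L) (mul_ne_zero hp.ne_zero hp.ne_zero)⟩
  have hscale : ((p : ℂ) * p) • degeneracy 2 (M := L) (d := p * p) dvd_rfl D =
      levelInclusion 2 (dvd_mul_right L (p * p)) D := by
    apply DFunLike.coe_injective
    rw [coe_levelInclusion]
    funext τ
    rw [← congrFun hDY τ, ModularForm.slash_apply]
    have hYpos : 0 < Y.det := by rw [hYdet, ← hXdet]; exact hXpos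
    have hσ : UpperHalfPlane.σ (atkinGL Y) = .refl ℝ ℂ := by
      rw [UpperHalfPlane.σ, if_pos (atkinGL_det_pos hYpos)]
    have hval : ((atkinGL Y).det : ℝ) = (p : ℝ) * p := by
      rw [Matrix.GeneralLinearGroup.val_det_apply, val_atkinGL hYpos.ne', ← RingHom.mapMatrix_apply,
        ← RingHom.map_det, hYdet]
      simp
    have hsm : atkinGL Y • τ =
        (((a - b * ((p : ℤ) - L) : ℤ) : ℝ)) +ᵥ (heckeDiagMatrix (p * p) • τ) := by
      apply UpperHalfPlane.ext
      rw [UpperHalfPlane.coe_smul_of_det_pos (atkinGL_det_pos hYpos), UpperHalfPlane.coe_vadd,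
        coe_heckeDiagMatrix_smul (mul_ne_zero hp.ne_zero hp.ne_zero)]
      simp only [UpperHalfPlane.num, UpperHalfPlane.denom, val_atkinGL hYpos.ne']
      simp [hY]
      ring
    have hperiod : ∀ (z : ℤ) (w : ℍ), D ((z : ℝ) +ᵥ w) = D w := by
      intro z w
      have hP := (SlashInvariantFormClass.periodic_comp_ofComplex D hper).int_mul z (w : ℂ)
      simp only [Function.comp_apply, mul_one] at hP
      rw [UpperHalfPlane.ofComplex_apply w] at hP
      rw [← hP]
      congr 1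
      rw [← UpperHalfPlane.ofComplex_apply ((z : ℝ) +ᵥ w), UpperHalfPlane.coe_vadd]
      congr 1
      push_cast
      ring
    rw [hσ, hval, hsm, hperiod, abs_of_nonneg (by positivity)]
    simp only [UpperHalfPlane.denom, val_atkinGL hYpos.ne']
    simp [hY, coe_degeneracy, dilate_apply]
    ring
  apply cuspForm_ext_qCoeff
  intro n
  rw [atkin_qCoeff_zero_form]
  induction n using Nat.strong_induction_on with
  | _ n ih =>
    have h := congrArg (fun x : CuspForm (CongruenceSubgroup.Gamma0 (L * (p * p))) 2 => qCoeff ⇑x n)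
      hscale
    simp only [atkin_qCoeff_smul, qCoeff_degeneracy, qCoeff_levelInclusion] at h
    rw [← h]
    split_ifs with hdvd
    · rcases Nat.eq_zero_or_pos n with rfl | hn
      · have h0 : qCoeff ⇑D 0 = 0 := CuspFormClass.qExpansion_coeff_zero D one_pos hper
        simp [h0]
      · rw [ih (n / (p * p)) (Nat.div_lt_self hn (Nat.one_lt_mul_iff.mpr
          ⟨hp.pos, hp.pos, Or.inl hp.one_lt⟩)), mul_zero]
    · rw [mul_zero]

/-- Two eigenforms agreeing at primes outside `S` have equal coefficients at indices all of whose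
prime factors are good and outside `S`. -/
lemma qCoeff_eq_of_forall_primeFactors [NeZero M] [NeZero M']
    {g : CuspForm (CongruenceSubgroup.Gamma0 M) 2} (hg : g.IsNormalizedEigenform)
    {h : CuspForm (CongruenceSubgroup.Gamma0 M') 2} (hh : h.IsNormalizedEigenform) (n : ℕ)
    (hn : n ≠ 0)
    (heq : ∀ ℓ : ℕ, ℓ.Prime → ℓ ∣ n → ¬ ℓ ∣ M ∧ ¬ ℓ ∣ M' ∧ qCoeff h ℓ = qCoeff g ℓ) :
    qCoeff h n = qCoeff g n := by
  induction n using Nat.strong_induction_on with
  | _ n ih =>
    rcases eq_or_ne n 1 with rfl | hn1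
    · rw [hg.qCoeff_one, hh.qCoeff_one]
    obtain ⟨r, hr, hrn⟩ := Nat.exists_prime_and_dvd hn1
    obtain ⟨hrM, hrM', hre⟩ := heq r hr hrn
    obtain ⟨e, m, hrm, rfl⟩ := Nat.exists_eq_pow_mul_and_not_dvd hn r hr.one_lt.ne'
    have hm0 : m ≠ 0 := fun h0 => hn (by rw [h0, mul_zero])
    have he : e ≠ 0 := fun h0 => hrm (by simpa [h0] using hrn)
    have hm : qCoeff h m = qCoeff g m := by
      refine ih m ?_ hm0 fun ℓ hℓ hℓm => heq ℓ hℓ (dvd_mul_of_dvd_right hℓm _)
      exact lt_mul_left (Nat.pos_of_ne_zero hm0) (Nat.one_lt_pow he hr.one_lt)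
    have hpow : ∀ s, qCoeff h (r ^ s) = qCoeff g (r ^ s) := by
      intro s
      induction s using Nat.strong_induction_on with
      | _ s ih2 =>
        rcases s with _ | _ | s
        · simp [hg.qCoeff_one, hh.qCoeff_one]
        · simpa using hre
        · rw [hh.qCoeff_prime_pow_of_not_dvd r s hr hrM', hg.qCoeff_prime_pow_of_not_dvd r s hr hrM,
            hre, ih2 (s + 1) (by omega), ih2 s (by omega)]
    have hcop : (r ^ e).Coprime m := (hr.coprime_iff_not_dvd.mpr hrm).pow_left e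
    rw [hh.qCoeff_mul_of_coprime _ _ hcop, hg.qCoeff_mul_of_coprime _ _ hcop, hpow, hm]

/-- Good eigenvalues are determined by all but finitely many of them. -/
theorem qCoeff_eq_of_agree_cofinite [NeZero M] [NeZero M']
    {g : CuspForm (CongruenceSubgroup.Gamma0 M) 2} (hg : g.IsNormalizedEigenform)
    {h : CuspForm (CongruenceSubgroup.Gamma0 M') 2} (hh : h.IsNormalizedEigenform) (S : Finset ℕ)
    (heq : ∀ ℓ : ℕ, ℓ.Prime → ℓ ∉ S → ¬ ℓ ∣ M → ¬ ℓ ∣ M' → qCoeff h ℓ = qCoeff g ℓ)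
    {p : ℕ} (hp : p.Prime) (hpM : ¬ p ∣ M) (hpM' : ¬ p ∣ M') : qCoeff h p = qCoeff g p := by
  classical
  set R : Finset ℕ := ((S.erase p).filter Nat.Prime) ∪ M.primeFactors ∪ M'.primeFactors with hR
  have hRp : ∀ r ∈ R, r.Prime := by
    intro r hr
    simp only [hR, Finset.mem_union, Finset.mem_filter, Nat.mem_primeFactors] at hr
    rcases hr with (⟨_, h⟩ | ⟨h, _⟩) | ⟨h, _⟩ <;> exact h
  have hpR : p ∉ R := by
    simp [hR, Nat.mem_primeFactors, hpM, hpM']
  obtain ⟨L1, hL1, G1, hG1, hG1c⟩ := exists_sieve_finset g R hRp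
  obtain ⟨L2, hL2, G2, hG2, hG2c⟩ := exists_sieve_finset h R hRp
  haveI : NeZero (L1 * L2) := ⟨mul_ne_zero (NeZero.ne L1) (NeZero.ne L2)⟩
  set D := levelInclusion 2 (dvd_mul_left L2 L1) G2 - levelInclusion 2 (dvd_mul_right L1 L2) G1
  have hpL : ¬ p ∣ L1 * L2 := fun hd => (hp.dvd_mul.mp hd).elim
    (fun h1 => (hG1 p hp h1).elim hpM hpR) fun h2 => (hG2 p hp h2).elim hpM' hpR
  have hD : ∀ n, qCoeff ⇑D n =
      if ∀ r ∈ R, ¬ r ∣ n then qCoeff ⇑h n - qCoeff ⇑g n else 0 := fun n => by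
    rw [atkin_qCoeff_sub, qCoeff_levelInclusion, qCoeff_levelInclusion, hG1c, hG2c]
    split_ifs <;> simp
  have hD0 : D = 0 := by
    refine eq_zero_of_supported_dvd hp hpL fun n hpn => ?_
    rw [hD]
    split_ifs with hn
    · rw [sub_eq_zero]
      refine qCoeff_eq_of_forall_primeFactors hg hh n (fun h0 => hpn (h0 ▸ dvd_zero p))
        fun ℓ hℓ hℓn => ?_
      have hℓp : ℓ ≠ p := fun h0 => hpn (h0 ▸ hℓn)
      have hℓR : ℓ ∉ R := fun h0 => hn ℓ h0 hℓn
      simp only [hR, Finset.mem_union, Finset.mem_filter, Finset.mem_erase, Nat.mem_primeFactors,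
        not_or] at hℓR
      have hℓM : ¬ ℓ ∣ M := fun h0 => hℓR.1.2 ⟨hℓ, h0, NeZero.ne M⟩
      have hℓM' : ¬ ℓ ∣ M' := fun h0 => hℓR.2 ⟨hℓ, h0, NeZero.ne M'⟩
      exact ⟨hℓM, hℓM', heq ℓ hℓ (fun h0 => hℓR.1.1 ⟨⟨hℓp, h0⟩, hℓ⟩) hℓM hℓM'⟩
    · rfl
  have hval := hD p
  rw [hD0, atkin_qCoeff_zero_form, if_pos] at hval
  · exact sub_eq_zero.mp hval.symm
  · intro r hr hrp
    exact hpR ((Nat.prime_dvd_prime_iff_eq (hRp r hr) hp).mp hrp ▸ hr)

/-- A newform's good eigensystem cannot occur at a proper divisor level even up to finitely many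
primes. -/
theorem false_of_agree_cofinite [NeZero M] [NeZero M']
    {g : CuspForm (CongruenceSubgroup.Gamma0 M) 2} (hg : g.IsNewform) (hdvd : M' ∣ M)
    (hne : M' ≠ M) {h : CuspForm (CongruenceSubgroup.Gamma0 M') 2} (hh : h.IsNormalizedEigenform)
    (S : Finset ℕ)
    (heq : ∀ ℓ : ℕ, ℓ.Prime → ℓ ∉ S → ¬ ℓ ∣ M → qCoeff h ℓ = qCoeff g ℓ) : False :=
  hg.2 M' hdvd hne ⟨h, hh, fun _ hℓ hℓM =>
    qCoeff_eq_of_agree_cofinite hg.1 hh S (fun ℓ hℓ hS hM _ => heq ℓ hℓ hS hM) hℓ hℓM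
      fun hd => hℓM (hd.trans hdvd)⟩

/-- The single exceptional prime case. -/
theorem false_of_agree_off_prime [NeZero M] [NeZero M'] {p : ℕ}
    {g : CuspForm (CongruenceSubgroup.Gamma0 M) 2} (hg : g.IsNewform) (hdvd : M' ∣ M)
    (hne : M' ≠ M) {h : CuspForm (CongruenceSubgroup.Gamma0 M') 2} (hh : h.IsNormalizedEigenform)
    (heq : ∀ ℓ : ℕ, ℓ.Prime → ¬ ℓ ∣ M → ℓ ≠ p → qCoeff h ℓ = qCoeff g ℓ) : False :=
  false_of_agree_cofinite hg hdvd hne hh {p}
    fun ℓ hℓ hS hM => heq ℓ hℓ hM (by simpa using hS)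

end Fermat.Agent.Newform

end
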