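import Fermat.Prelude.Def_ModularForm_HeckeOperatorForms
import Fermat.Prelude.Def_ModularForm_HeckeOperator
import Fermat.Prelude.Sol.S_CuspFormClass_isZeroAt_heckeU
import Fermat.Agent.Newform.AtkinInvolution

/-!
# Cusp forms from the Atkin–Lehner combinatorics

The operator `W` on `S_k(Γ₀(qM))`, the trace `f|W + U_q f` to level `M` and `U_q` lowering the
level when `q ∣ M`.
-/

set_option autoImplicit false

noncomputable section

open UpperHalfPlane Matrix
open scoped MatrixGroups ModularForm Manifold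

namespace Fermat.Agent.Newform

variable {N : ℕ} {k : ℤ}

lemma atkinInvariant_coe (f : CuspForm (CongruenceSubgroup.Gamma0 N) k) :
    AtkinInvariant N k ⇑f :=
  fun γ hγ => SlashInvariantFormClass.slash_action_eq f γ hγ

lemma atkin_isCusp_iff {M : ℕ} [NeZero M] [NeZero N] {c : OnePoint ℝ} :
    IsCusp c (CongruenceSubgroup.Gamma0 M : Subgroup (GL (Fin 2) ℝ)) ↔
      IsCusp c (CongruenceSubgroup.Gamma0 N : Subgroup (GL (Fin 2) ℝ)) :=
  (Subgroup.IsArithmetic.isCusp_iff_isCusp_SL2Z _).trans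
    (Subgroup.IsArithmetic.isCusp_iff_isCusp_SL2Z _).symm

lemma isZeroAt_slash_atkinGL [NeZero N] (f : CuspForm (CongruenceSubgroup.Gamma0 N) k)
    {X : Matrix (Fin 2) (Fin 2) ℤ} (hX : X.det ≠ 0) {c : OnePoint ℝ}
    (hc : IsCusp c (CongruenceSubgroup.Gamma0 N : Subgroup (GL (Fin 2) ℝ))) :
    c.IsZeroAt (⇑f ∣[k] atkinGL X) k := by
  have hQ : (X.map (Int.castRingHom ℚ)).det ≠ 0 := by
    rw [← RingHom.mapMatrix_apply, ← RingHom.map_det]
    simpa using hX
  have hg : atkinGL X = Matrix.GeneralLinearGroup.map (Rat.castHom ℝ)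
      (Matrix.GeneralLinearGroup.mkOfDetNeZero (X.map (Int.castRingHom ℚ)) hQ) := by
    apply Units.ext
    rw [val_atkinGL hX]
    ext i j
    simp [Matrix.GeneralLinearGroup.mkOfDetNeZero]
  rw [hg]
  exact P2MW.S_CuspFormClass_isZeroAt_heckeU.ModularForm.S06W2.isZeroAt_slash_ratCast f _ hc

namespace AtkinData

variable {q M : ℕ} (D : AtkinData q M)

/-- The Atkin–Lehner operator on level `qM` cusp forms. -/
def wLin (k : ℤ) (hN : N = q * M) [NeZero N] :
    CuspForm (CongruenceSubgroup.Gamma0 N) k →ₗ[ℂ] CuspForm (CongruenceSubgroup.Gamma0 N) k where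
  toFun f :=
    { toFun := ⇑f ∣[k] atkinGL D.W
      slash_action_eq' := fun γ hγ => by
        have hf := atkinInvariant_coe f
        subst hN
        obtain ⟨g, hg, rfl⟩ := hγ
        obtain ⟨Y, hY1, hY2, hY3⟩ := D.exists_W_mul (g : Matrix (Fin 2) (Fin 2) ℤ)
          ((ZMod.intCast_zmod_eq_zero_iff_dvd _ _).mp (CongruenceSubgroup.Gamma0_mem.mp hg))
        show (⇑f ∣[k] atkinGL D.W) ∣[k] _ = ⇑f ∣[k] atkinGL D.W
        rw [← atkinGL_coe_SL, ← SlashAction.slash_mul, ← atkinGL_mul D.det_W_ne (by simp), hY3,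
          hf.slash_atkinGL_mul (by rw [hY2, g.det_coe]) hY1 D.det_W_ne]
      holo' := (CuspFormClass.holo f).slash k _
      zero_at_cusps' := fun hc => isZeroAt_slash_atkinGL f D.det_W_ne hc }
  map_add' f g := DFunLike.coe_injective <|
    show (⇑(f + g)) ∣[k] atkinGL D.W = ⇑f ∣[k] atkinGL D.W + ⇑g ∣[k] atkinGL D.W by
      rw [FunLike.coe_add, SlashAction.add_slash]
  map_smul' c f := DFunLike.coe_injective <|
    show (⇑(c • f)) ∣[k] atkinGL D.W = c • (⇑f ∣[k] atkinGL D.W) by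
      rw [FunLike.coe_smul, ModularForm.smul_slash,
        UpperHalfPlane.σ, if_pos (atkinGL_det_pos (by rw [D.det_W]; exact_mod_cast D.prime.pos))]
      rfl

@[simp] lemma coe_wLin (k : ℤ) (hN : N = q * M) [NeZero N]
    (f : CuspForm (CongruenceSubgroup.Gamma0 N) k) :
    ⇑(D.wLin k hN f) = ⇑f ∣[k] atkinGL D.W := rfl

/-- `W` commutes with `T_ℓ`, `ℓ ∤ N`. -/
theorem wLin_heckeT (k : ℤ) (hN : N = q * M) [NeZero N] {ℓ : ℕ} (hℓ : ℓ.Prime) (hℓN : ¬ ℓ ∣ N)
    (f : CuspForm (CongruenceSubgroup.Gamma0 N) k) :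
    CuspForm.heckeTLin k hℓ hℓN (D.wLin k hN f) = D.wLin k hN (CuspForm.heckeTLin k hℓ hℓN f) :=
  DFunLike.coe_injective (D.heckeT_slash_W (hN ▸ atkinInvariant_coe f) hℓ (hN ▸ hℓN))

/-- `W` is an involution in weight two. -/
theorem wLin_wLin (hN : N = q * M) [NeZero N] (f : CuspForm (CongruenceSubgroup.Gamma0 N) 2) :
    D.wLin 2 hN (D.wLin 2 hN f) = f :=
  DFunLike.coe_injective (D.slash_W_W (hN ▸ atkinInvariant_coe f))

/-- The trace of `f|W` to level `M`: `U_q f + f|W`. -/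
def traceW (k : ℤ) (hN : N = q * M) [NeZero N] [NeZero M]
    (f : CuspForm (CongruenceSubgroup.Gamma0 N) k) :
    CuspForm (CongruenceSubgroup.Gamma0 M) k where
  toFun := ⇑(CuspForm.heckeULin k (hN ▸ Dvd.intro M rfl : q ∣ N) f + D.wLin k hN f)
  slash_action_eq' := D.heckeU_add_slash_W (hN ▸ atkinInvariant_coe f)
  holo' := CuspFormClass.holo
    (CuspForm.heckeULin k (hN ▸ Dvd.intro M rfl : q ∣ N) f + D.wLin k hN f)
  zero_at_cusps' := fun hc => CuspFormClass.zero_at_cusps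
    (CuspForm.heckeULin k (hN ▸ Dvd.intro M rfl : q ∣ N) f + D.wLin k hN f)
    (atkin_isCusp_iff.mp hc)

lemma coe_traceW (k : ℤ) (hN : N = q * M) [NeZero N] [NeZero M]
    (f : CuspForm (CongruenceSubgroup.Gamma0 N) k) :
    ⇑(D.traceW k hN f) =
      ⇑(CuspForm.heckeULin k (hN ▸ Dvd.intro M rfl : q ∣ N) f + D.wLin k hN f) := rfl

end AtkinData

/-- For `q ∣ M`, `U_q` maps level `qM` to level `M`. -/
def atkinLowerU (k : ℤ) {q M : ℕ} (hq : q ≠ 0) (hqM : q ∣ M) (hN : N = q * M) [NeZero N] [NeZero M]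
    (f : CuspForm (CongruenceSubgroup.Gamma0 N) k) :
    CuspForm (CongruenceSubgroup.Gamma0 M) k where
  toFun := ⇑(CuspForm.heckeULin k (hN ▸ Dvd.intro M rfl : q ∣ N) f)
  slash_action_eq' := (atkinInvariant_coe f).heckeU_of_dvd hq hqM hN
  holo' := CuspFormClass.holo (CuspForm.heckeULin k (hN ▸ Dvd.intro M rfl : q ∣ N) f)
  zero_at_cusps' := fun hc => CuspFormClass.zero_at_cusps
    (CuspForm.heckeULin k (hN ▸ Dvd.intro M rfl : q ∣ N) f) (atkin_isCusp_iff.mp hc)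

lemma coe_atkinLowerU (k : ℤ) {q M : ℕ} (hq : q ≠ 0) (hqM : q ∣ M) (hN : N = q * M) [NeZero N]
    [NeZero M] (f : CuspForm (CongruenceSubgroup.Gamma0 N) k) :
    ⇑(atkinLowerU k hq hqM hN f) =
      ⇑(CuspForm.heckeULin k (hN ▸ Dvd.intro M rfl : q ∣ N) f) := rfl

end Fermat.Agent.Newform

end
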