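import Fermat.Prelude.Def_CuspForm_Newforms
import Fermat.Agent.Newform.AtkinEigen
import Fermat.Agent.Newform.AtkinForms

/-!
# Atkin–Lehner local facts for newforms

For a newform of level `N`: if `q ∥ N` then `f|W_q = -a_q f` and `a_q² = 1`; if `q² ∣ N` then
`a_q = 0`.  No oldform of level `N / q` has the same good eigenvalues.
-/

set_option autoImplicit false

noncomputable section

namespace Fermat.Agent.Newform

open CuspForm ModularForm ModularFormClass UpperHalfPlane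

variable {N M q : ℕ}

/-- If the good eigensystem of `f` does not occur at level `M`, no nonzero level `M` form has
the same good eigenvalues. -/
theorem eq_zero_of_eigen_of_not_goodOccurs [NeZero M]
    {f : CuspForm (CongruenceSubgroup.Gamma0 N) 2} (hf : ¬ GoodEigensystemOccursAt f M)
    (hMN : M ∣ N) {g : CuspForm (CongruenceSubgroup.Gamma0 M) 2}
    (hT : ∀ ℓ (hℓ : ℓ.Prime) (hℓN : ¬ ℓ ∣ N),
      CuspForm.heckeTLin 2 hℓ (fun h => hℓN (h.trans hMN)) g = qCoeff f ℓ • g) :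
    g = 0 := by
  by_contra hg
  exact hf (exists_eigenform_of_eigenvector hg (fun ℓ => qCoeff f ℓ) hMN hT)

/-- A newform has no nonzero companion at a proper divisor level with the same good eigenvalues. -/
theorem eq_zero_of_eigen_of_isNewform [NeZero M]
    {f : CuspForm (CongruenceSubgroup.Gamma0 N) 2} (hf : f.IsNewform) (hMN : M ∣ N) (hne : M ≠ N)
    {g : CuspForm (CongruenceSubgroup.Gamma0 M) 2}
    (hT : ∀ ℓ (hℓ : ℓ.Prime) (hℓN : ¬ ℓ ∣ N),
      CuspForm.heckeTLin 2 hℓ (fun h => hℓN (h.trans hMN)) g = qCoeff f ℓ • g) :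
    g = 0 :=
  eq_zero_of_eigen_of_not_goodOccurs (hf.2 M hMN hne) hMN hT

private lemma atkin_proper (hq : q.Prime) (hN : N = q * M) [NeZero M] : M ≠ N := by
  have hM := NeZero.pos M
  have := hq.two_le
  rw [hN]
  nlinarith

/-- The trace to level `M` of `f|W_q` vanishes. -/
theorem traceW_eq_zero [NeZero N] [NeZero M] {f : CuspForm (CongruenceSubgroup.Gamma0 N) 2}
    (hf : f.IsNormalizedEigenform) (hnew : ¬ GoodEigensystemOccursAt f M) (D : AtkinData q M)
    (hN : N = q * M) : D.traceW 2 hN f = 0 := by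
  refine eq_zero_of_eigen_of_not_goodOccurs hnew (hN ▸ Dvd.intro_left q rfl)
    fun ℓ hℓ hℓN => DFunLike.coe_injective ?_
  set F := CuspForm.heckeULin 2 (hN ▸ Dvd.intro M rfl : q ∣ N) f + D.wLin 2 hN f
  have hF : CuspForm.heckeTLin 2 hℓ hℓN F = qCoeff f ℓ • F := by
    have h1 := congrArg (fun T : Module.End ℂ _ => T f)
      (CuspForm.heckeTLin_heckeULin_comm 2 hℓ hℓN (hN ▸ Dvd.intro M rfl : q ∣ N)).eq
    simp only [Module.End.mul_apply] at h1
    rw [map_add, h1, D.wLin_heckeT, atkin_heckeT_eigen hf hℓ hℓN, map_smul, map_smul, ← smul_add]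
  exact congrArg (fun x : CuspForm (CongruenceSubgroup.Gamma0 N) 2 => ⇑x) hF

/-- `f|W_q = -a_q f` for an eigenform new at `q ∥ N`. -/
theorem wLin_of_not_goodOccurs [NeZero N] [NeZero M]
    {f : CuspForm (CongruenceSubgroup.Gamma0 N) 2} (hf : f.IsNormalizedEigenform)
    (hnew : ¬ GoodEigensystemOccursAt f M) (D : AtkinData q M) (hN : N = q * M) :
    D.wLin 2 hN f = -(qCoeff f q • f) := by
  have h0 := traceW_eq_zero hf hnew D hN
  have h1 : CuspForm.heckeULin 2 (hN ▸ Dvd.intro M rfl : q ∣ N) f + D.wLin 2 hN f = 0 :=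
    DFunLike.coe_injective ((D.coe_traceW 2 hN f).symm.trans
      (congrArg (fun x : CuspForm (CongruenceSubgroup.Gamma0 M) 2 => ⇑x) h0))
  rw [atkin_heckeU_eigen hf D.prime] at h1
  exact eq_neg_of_add_eq_zero_right h1

/-- `f|W_q = -a_q f` for a newform and `q ∥ N`. -/
theorem wLin_newform [NeZero N] [NeZero M] {f : CuspForm (CongruenceSubgroup.Gamma0 N) 2}
    (hf : f.IsNewform) (D : AtkinData q M) (hN : N = q * M) :
    D.wLin 2 hN f = -(qCoeff f q • f) :=
  wLin_of_not_goodOccurs hf.1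
    (hf.2 M (hN ▸ Dvd.intro_left q rfl) (atkin_proper D.prime hN)) D hN

/-- `q ∥ N` and new at `q` ⇒ `a_q² = 1`. -/
theorem qCoeff_sq_eq_one_of_isNewformAt [NeZero N] {f : CuspForm (CongruenceSubgroup.Gamma0 N) 2}
    (hf : f.IsNewformAt q) (hq : q.Prime) (hq2 : ¬ q ^ 2 ∣ N) :
    qCoeff f q ^ 2 = 1 := by
  obtain ⟨hf, hqN, hnew⟩ := hf
  obtain ⟨M, hN⟩ := hqN
  rw [show N / q = M by rw [hN, Nat.mul_div_cancel_left _ hq.pos]] at hnew
  haveI : NeZero M := ⟨fun h => NeZero.ne N (by rw [hN, h, mul_zero])⟩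
  obtain ⟨D⟩ := exists_atkinData hq (M := M)
    fun h => hq2 (by rw [hN, sq]; exact Nat.mul_dvd_mul_left q h)
  have h := D.wLin_wLin hN f
  rw [wLin_of_not_goodOccurs hf hnew D hN, map_neg, map_smul,
    wLin_of_not_goodOccurs hf hnew D hN, smul_neg, neg_neg,
    smul_smul] at h
  have h' := congrArg (fun x : CuspForm (CongruenceSubgroup.Gamma0 N) 2 => qCoeff ⇑x 1) h
  simp only [atkin_qCoeff_smul, hf.qCoeff_one, mul_one] at h'
  rw [sq]
  exact h'

/-- `q ∥ N ⇒ a_q² = 1`. -/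
theorem qCoeff_sq_eq_one_of_not_sq_dvd [NeZero N] {f : CuspForm (CongruenceSubgroup.Gamma0 N) 2}
    (hf : f.IsNewform) (hq : q.Prime) (hqN : q ∣ N) (hq2 : ¬ q ^ 2 ∣ N) :
    qCoeff f q ^ 2 = 1 :=
  qCoeff_sq_eq_one_of_isNewformAt (hf.isNewformAt hq hqN (NeZero.ne N)) hq hq2

/-- An eigenform with `q ∥ N` has its good eigensystem at level `N / q` or has `a_q² = 1`. -/
theorem goodOccurs_or_qCoeff_sq_eq_one [NeZero N] {f : CuspForm (CongruenceSubgroup.Gamma0 N) 2}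
    (hf : f.IsNormalizedEigenform) (hq : q.Prime) (hqN : q ∣ N) (hq2 : ¬ q ^ 2 ∣ N) :
    GoodEigensystemOccursAt f (N / q) ∨ qCoeff f q ^ 2 = 1 :=
  (Classical.em _).imp_right fun h => qCoeff_sq_eq_one_of_isNewformAt ⟨hf, hqN, h⟩ hq hq2

/-- `a_q = ±1` when `q ∥ N`. -/
theorem qCoeff_eq_one_or_neg_one [NeZero N] {f : CuspForm (CongruenceSubgroup.Gamma0 N) 2}
    (hf : f.IsNewform) (hq : q.Prime) (hqN : q ∣ N) (hq2 : ¬ q ^ 2 ∣ N) :
    qCoeff f q = 1 ∨ qCoeff f q = -1 :=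
  sq_eq_one_iff.mp (qCoeff_sq_eq_one_of_not_sq_dvd hf hq hqN hq2)

/-- `q² ∣ N ⇒ a_q = 0`. -/
theorem qCoeff_eq_zero_of_sq_dvd [NeZero N] {f : CuspForm (CongruenceSubgroup.Gamma0 N) 2}
    (hf : f.IsNewform) (hq : q.Prime) (hq2 : q ^ 2 ∣ N) : qCoeff f q = 0 := by
  obtain ⟨L, hL⟩ := hq2
  have hN : N = q * (q * L) := by rw [hL]; ring
  haveI : NeZero (q * L) := ⟨fun h => NeZero.ne N (by rw [hN, h, mul_zero])⟩
  set g := atkinLowerU 2 hq.ne_zero (Dvd.intro L rfl) hN f with hg_def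
  have hg : g = 0 := by
    refine eq_zero_of_eigen_of_isNewform hf (hN ▸ Dvd.intro_left q rfl) (atkin_proper hq hN)
      fun ℓ hℓ hℓN => DFunLike.coe_injective ?_
    have h1 := congrArg (fun T : Module.End ℂ _ => T f)
      (CuspForm.heckeTLin_heckeULin_comm 2 hℓ hℓN (hN ▸ Dvd.intro (q * L) rfl : q ∣ N)).eq
    simp only [Module.End.mul_apply] at h1
    rw [atkin_heckeT_eigen hf.1 hℓ hℓN, map_smul] at h1
    exact congrArg (fun x : CuspForm (CongruenceSubgroup.Gamma0 N) 2 => ⇑x) h1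
  have h0 : CuspForm.heckeULin 2 (hN ▸ Dvd.intro (q * L) rfl : q ∣ N) f = 0 :=
    DFunLike.coe_injective ((coe_atkinLowerU 2 hq.ne_zero (Dvd.intro L rfl) hN f).symm.trans
      (congrArg (fun x : CuspForm (CongruenceSubgroup.Gamma0 (q * L)) 2 => ⇑x) hg))
  rw [atkin_heckeU_eigen hf.1 hq] at h0
  have h' := congrArg (fun x : CuspForm (CongruenceSubgroup.Gamma0 N) 2 => qCoeff ⇑x 1) h0
  simp only [atkin_qCoeff_smul, atkin_qCoeff_zero_form, hf.1.qCoeff_one, mul_one] at h'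
  exact h'

/-- The prelude property `NewformBadPrimeCoeff`. -/
theorem newformBadPrimeCoeff (N : ℕ) [NeZero N] : CuspForm.NewformBadPrimeCoeff N :=
  fun _ hf _ hq hqN =>
    ⟨qCoeff_sq_eq_one_of_not_sq_dvd hf hq hqN, qCoeff_eq_zero_of_sq_dvd hf hq⟩

/-- A newform is new (prelude `IsNewAt`) at every prime exactly dividing its level. -/
theorem isNewAt_of_isNewform [NeZero N] {f : CuspForm (CongruenceSubgroup.Gamma0 N) 2}
    (hf : f.IsNewform) (hq : q.Prime) (hqN : q ∣ N) (hq2 : ¬ q ^ 2 ∣ N) : f.IsNewAt q :=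
  qCoeff_sq_eq_one_of_not_sq_dvd hf hq hqN hq2

end Fermat.Agent.Newform

end
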